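/-
Programme FFJ (S19), brick FIB (helper6), part (F1): the ABSTRACT simultaneous covering theorem.

In the language of `JAC/Cover/AbsCover98` (helper98): finitely many "line bundles" `L_i` on one
curve, given by curve-like cohomology data `c i : CohData Pt` on the same set of points `Pt`.

* `exists_simul_fill` : if `h¹(L_i(D_i)) ≤ n` for all `i`, there are `n` DISTINCT points
  `q_1, …, q_n` of a prescribed infinite set `S`, outside a prescribed finite set `Bad`, with
  `h¹(L_i(D_i + q_1 + … + q_n)) = 0` for ALL `i` simultaneously.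
* `exists_simul_good` : if moreover `χ(L_i(D_i)) = 1 - n`, `h⁰(L_i(D_i)) ≤ 1` and
  `h⁰(L_i(D_i - P)) = 0` for `P` in a finite set `Inf`, then for the same points
  `h¹(L_i(D_i + Σ q)) = 0`, `h⁰(L_i(D_i + Σ q)) = 1` and the unique section does not vanish at any
  `P ∈ Inf`.

No duality theorem is used (only `finite_jump` of `AbsCover98`).
-/
import Mathlib
import Fermat.Agent.JAC.Cover.AbsCover98

set_option autoImplicit false

namespace Fermat.Agent.FFJ.Fib.AbsSimul6

open Finsupp Fermat.Agent.JAC.Cover.AbsCover98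

variable {Pt : Type*}

/-- The Euler characteristic after adding a list of points. -/
theorem chi_add_dv {c : CohData Pt} (hc : c.IsCurveLike) (l : List Pt) :
    ∀ D : Pt →₀ ℤ,
      (c.H0 (D + dv l) : ℤ) - c.H1 (D + dv l) = c.H0 D - c.H1 D + l.length := by
  induction l with
  | nil => intro D; simp
  | cons q l ih =>
    intro D
    rw [dv_cons, ← add_assoc, ih (D + single q 1), hc.chi D q]
    simp only [List.length_cons]
    push_cast
    ring

/-- `h¹` does not increase when points are added. -/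
theorem H1_add_dv_le {c : CohData Pt} (hc : c.IsCurveLike) (l : List Pt) :
    ∀ D : Pt →₀ ℤ, c.H1 (D + dv l) ≤ c.H1 D := by
  induction l with
  | nil => intro D; simp
  | cons q l ih =>
    intro D
    rw [dv_cons, ← add_assoc]
    exact (ih (D + single q 1)).trans (hc.mono1 D q)

variable {ι : Type*} [Finite ι]

/-- **Simultaneous fill.**  Finitely many curve-like cohomology data on the same points; if
`h¹_i(D_i) ≤ n` for all `i`, there are `n` distinct points of the infinite set `S` outside the finite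
set `Bad` which kill all the `h¹_i` at once. -/
theorem exists_simul_fill (c : ι → CohData Pt) (hc : ∀ i, (c i).IsCurveLike) {S : Set Pt}
    (hS : S.Infinite) :
    ∀ (n : ℕ) (D : ι → Pt →₀ ℤ) (Bad : Set Pt), Bad.Finite → (∀ i, (c i).H1 (D i) ≤ n) →
      ∃ l : List Pt, l.Nodup ∧ (∀ x ∈ l, x ∈ S ∧ x ∉ Bad) ∧ l.length = n ∧
        ∀ i, (c i).H1 (D i + dv l) = 0 := by
  intro n
  induction n with
  | zero =>
    intro D Bad _ hD
    refine ⟨[], List.nodup_nil, by simp, rfl, fun i => ?_⟩
    have := hD i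
    simp only [dv_nil, add_zero]
    omega
  | succ n ih =>
    intro D Bad hBad hD
    -- the bad sets
    have hjump : ∀ i, {P | 0 < (c i).H1 (D i) ∧
        (c i).H1 (D i + single P 1) = (c i).H1 (D i)}.Finite := by
      intro i
      by_cases h : 0 < (c i).H1 (D i)
      · exact ((hc i).finite_jump (D i) h).subset fun P hP => hP.2
      · refine Set.finite_empty.subset ?_
        intro P hP
        exact absurd hP.1 h
    have hU : (Bad ∪ ⋃ i, {P | 0 < (c i).H1 (D i) ∧
        (c i).H1 (D i + single P 1) = (c i).H1 (D i)}).Finite :=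
      hBad.union (Set.finite_iUnion hjump)
    obtain ⟨q, hqS, hq⟩ := (hS.sdiff hU).nonempty
    have hqBad : q ∉ Bad := fun h => hq (Or.inl h)
    have hqi : ∀ i, ¬ (0 < (c i).H1 (D i) ∧ (c i).H1 (D i + single q 1) = (c i).H1 (D i)) :=
      fun i h => hq (Or.inr (Set.mem_iUnion.mpr ⟨i, h⟩))
    have hD' : ∀ i, (c i).H1 (D i + single q 1) ≤ n := by
      intro i
      have h1 := (hc i).mono1 (D i) q
      have h2 := hD i
      have h3 := hqi i
      by_cases h : 0 < (c i).H1 (D i)
      · have : (c i).H1 (D i + single q 1) ≠ (c i).H1 (D i) := fun h' => h3 ⟨h, h'⟩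
        omega
      · omega
    obtain ⟨l, hnd, hl, hlen, hl1⟩ :=
      ih (fun i => D i + single q 1) (Bad ∪ {q}) (hBad.union (Set.finite_singleton q)) hD'
    refine ⟨q :: l, ?_, ?_, by simp [hlen], fun i => ?_⟩
    · refine List.nodup_cons.mpr ⟨fun hmem => ?_, hnd⟩
      exact (hl q hmem).2 (Or.inr rfl)
    · intro x hx
      rcases List.mem_cons.1 hx with rfl | hx
      · exact ⟨hqS, hqBad⟩
      · exact ⟨(hl x hx).1, fun h => (hl x hx).2 (Or.inl h)⟩
    · rw [dv_cons, ← add_assoc]
      exact hl1 i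

/-- **Simultaneous good twist, abstract form.**  Finitely many curve-like cohomology data `c i`
(line bundles `L_i`) and divisors `D_i` with `χ(L_i(D_i)) = 1 - n`, `h⁰(L_i(D_i)) ≤ 1` and
`h⁰(L_i(D_i - P)) = 0` for `P ∈ Inf` (automatic in degree `0`).  Then there are `n` distinct points
`q_1, …, q_n ∈ S \ Bad` such that for ALL `i`: `h¹(L_i(D_i + Σ q)) = 0`, `h⁰(L_i(D_i + Σ q)) = 1`,
and the unique section does not vanish at any `P ∈ Inf`. -/
theorem exists_simul_good (c : ι → CohData Pt) (hc : ∀ i, (c i).IsCurveLike) {S Inf Bad : Set Pt}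
    (hS : S.Infinite) (hInf : Inf.Finite) (hBad : Bad.Finite) (n : ℕ) (D : ι → Pt →₀ ℤ)
    (hchi : ∀ i, ((c i).H0 (D i) : ℤ) - (c i).H1 (D i) = 1 - n)
    (h0 : ∀ i, (c i).H0 (D i) ≤ 1)
    (hI : ∀ i, ∀ P ∈ Inf, (c i).H0 (D i - single P 1) = 0) :
    ∃ l : List Pt, l.Nodup ∧ (∀ x ∈ l, x ∈ S ∧ x ∉ Bad) ∧ l.length = n ∧
      ∀ i, (c i).H1 (D i + dv l) = 0 ∧ (c i).H0 (D i + dv l) = 1 ∧
        ∀ P ∈ Inf, (c i).H0 (D i + dv l - single P 1) = 0 := by
  classical
  have : Finite ↥Inf := hInf.to_subtype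
  -- the enlarged family
  let c' : ι × Option ↥Inf → CohData Pt := fun x => c x.1
  let D' : ι × Option ↥Inf → Pt →₀ ℤ := fun x =>
    Option.elim x.2 (D x.1) (fun P => D x.1 - single (P : Pt) 1)
  have hD' : ∀ x, (c' x).H1 (D' x) ≤ n := by
    rintro ⟨i, o⟩
    cases o with
    | none =>
      change (c i).H1 (D i) ≤ n
      have h1 := hchi i
      have h2 := h0 i
      omega
    | some P =>
      change (c i).H1 (D i - single (P : Pt) 1) ≤ n
      have h1 := hchi i
      have h2 := (hc i).chi_sub (D i) (P : Pt)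
      have h3 := hI i P P.2
      omega
  obtain ⟨l, hnd, hl, hlen, hl1⟩ :=
    exists_simul_fill c' (fun x => hc x.1) hS n D' Bad hBad hD'
  refine ⟨l, hnd, hl, hlen, fun i => ?_⟩
  have h1 : (c i).H1 (D i + dv l) = 0 := hl1 (i, Option.none)
  refine ⟨h1, ?_, fun P hP => ?_⟩
  · have h2 := chi_add_dv (hc i) l (D i)
    have h3 := hchi i
    rw [hlen] at h2
    omega
  · have h2 : (c i).H1 (D i - single P 1 + dv l) = 0 := hl1 (i, Option.some ⟨P, hP⟩)
    have h3 := chi_add_dv (hc i) l (D i - single P 1)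
    have h4 := (hc i).chi_sub (D i) P
    have h5 := hchi i
    have h6 := hI i P hP
    have hcomm : D i + dv l - single P 1 = D i - single P 1 + dv l := by abel
    rw [hcomm]
    rw [hlen] at h3
    omega

end Fermat.Agent.FFJ.Fib.AbsSimul6
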