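/-
Programme FFJ (S19), brick FIB (helper6), part (F2): the simultaneous covering theorem in the place
language of `JAC/Fibre/CurveLikeSub67` (helper67).

A two-chart curve `(U0, U1)` over a field `K`, a family `p : Pt → Place K F` of DISTINCT places of
degree one, finitely many divisors `D0 i` of degree `0`, and `n` with `χ(O) = 1 - n` (the genus).
Then there are `n` distinct points `q_1, …, q_n` of a prescribed infinite set `S ⊆ Pt`, outside a
prescribed finite set `Bad`, such that for ALL `i` the divisor `D' = D0 i + Σ q` has `h¹ = 0`,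
`h⁰ = 1` and its unique section does not vanish at the (finitely many) points of `Inf`.
-/
import Mathlib
import Fermat.Agent.JAC.Fibre.CurveLikeSub67
import Fermat.Agent.FFJ.Fib.AbsSimul6

set_option autoImplicit false

open AlgebraicCurve

namespace Fermat.Agent.FFJ.Fib.SimulPlaces6

open Fermat.Agent.JAC.Fibre.Vanish67 Fermat.Agent.JAC.Cover.AbsCover98
  Fermat.Agent.JAC.Fibre.CurveLikeSub67 Fermat.Agent.FFJ.Fib.AbsSimul6

variable {K F : Type*} [Field K] [Field F] [Algebra K F] {Pt : Type*}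

/-- A divisor of degree `0` has `h⁰ ≤ 1` (given one place of degree one). -/
theorem h0_le_one_of_degree_eq_zero {U0 U1 : Set (Place K F)} (H : TwoChartHyp U0 U1)
    {D : Divisor K F} (hD : Divisor.degree D = 0) {v : Place K F} (hv : v.deg = 1) :
    h0 U0 U1 D ≤ 1 := by
  have h1 : h0 U0 U1 (D - Finsupp.single v 1) = 0 := by
    apply h0_eq_zero_of_degree_neg H
    rw [map_sub, hD, Divisor.degree_single, hv]
    norm_num
  have h2 := H.h0_add_le (D - Finsupp.single v 1) v
  rw [sub_add_cancel, h1, hv] at h2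
  omega

/-- **Simultaneous covering theorem, place language.** -/
theorem exists_simul_translate {U0 U1 : Set (Place K F)} (H : TwoChartHyp U0 U1)
    {p : Pt → Place K F} (hp : Function.Injective p) (hdeg : ∀ P, (p P).deg = 1)
    {S Inf Bad : Set Pt} (hS : S.Infinite) (hInf : Inf.Finite) (hBad : Bad.Finite)
    {ι : Type*} [Finite ι] (D0 : ι → Divisor K F) (hD0 : ∀ i, Divisor.degree (D0 i) = 0)
    (n : ℕ) (hn : chi U0 U1 0 = 1 - n) :
    ∃ l : List Pt, l.Nodup ∧ (∀ x ∈ l, x ∈ S ∧ x ∉ Bad) ∧ l.length = n ∧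
      ∀ i, h1 U0 U1 (D0 i + pushDiv p (dv l)) = 0 ∧ h0 U0 U1 (D0 i + pushDiv p (dv l)) = 1 ∧
        ∀ P ∈ Inf, h0 U0 U1 (D0 i + pushDiv p (dv l) - Finsupp.single (p P) 1) = 0 := by
  obtain ⟨P0, -⟩ := hS.nonempty
  have hc : ∀ i, (cohData U0 U1 p (D0 i)).IsCurveLike := fun i => isCurveLike H hp hdeg (D0 i)
  have hchi : ∀ i, (((cohData U0 U1 p (D0 i)).H0 0 : ℕ) : ℤ) - (cohData U0 U1 p (D0 i)).H1 0
      = 1 - n := by
    intro i
    simp only [cohData_H0, cohData_H1, map_zero, add_zero]
    have h := chi_eq H (D0 i)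
    rw [hD0 i, zero_add, hn] at h
    exact h
  have h0' : ∀ i, (cohData U0 U1 p (D0 i)).H0 0 ≤ 1 := by
    intro i
    simp only [cohData_H0, map_zero, add_zero]
    exact h0_le_one_of_degree_eq_zero H (hD0 i) (hdeg P0)
  have hI : ∀ i, ∀ P ∈ Inf,
      (cohData U0 U1 p (D0 i)).H0 (0 - Finsupp.single P 1) = 0 := by
    intro i P _
    simp only [cohData_H0, zero_sub, map_neg, pushDiv_single]
    apply h0_eq_zero_of_degree_neg H
    rw [map_add, map_neg, hD0 i, Divisor.degree_single, hdeg P]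
    norm_num
  obtain ⟨l, hnd, hl, hlen, hgood⟩ :=
    exists_simul_good (fun i => cohData U0 U1 p (D0 i)) hc hS hInf hBad n (fun _ => 0) hchi h0' hI
  refine ⟨l, hnd, hl, hlen, fun i => ?_⟩
  obtain ⟨g1, g0, gI⟩ := hgood i
  refine ⟨?_, ?_, fun P hP => ?_⟩
  · simpa using g1
  · simpa using g0
  · have := gI P hP
    simpa [add_sub_assoc] using this

end Fermat.Agent.FFJ.Fib.SimulPlaces6
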