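/-
Programme FFJ (S19), brick (D2) FIB-R (helper6), part 1: the simultaneous covering theorem in the
ABSTRACT two-chart setting of `JAC/Fibre/Setting38`, `DiagOfDiv38` over an ALGEBRAICALLY CLOSED field
`K`, with the twisting points taken from a prescribed SUPPLY.

`B₀ → B₀₁ ← B₁` Dedekind `K`-algebras with common fraction field `F` (`S : IsSetting K F t s B₀₁`),
`T : TwoChart U₀ U₁`, one divisor with `h¹ = 0`.  Given a family `Φ : J → (B₀₁ →ₐ[K] K)` of
`K`-points of the overlap and a subset `Sset ⊆ J` with infinitely many `t`-values, finitely many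
divisors `D0 i` of degree `0` and `n` with `χ(O) = 1 - n`, there is a list `l` of `n` elements of
`Sset` with pairwise distinct points such that for ALL `i` the divisor `D' = D0 i + Σ_{j ∈ l} [Φ j]`
has `h¹ = 0`, `h⁰ = 1` and `h⁰(D' - v) = 0` for every place `v` at infinity.
-/
import Mathlib
import Fermat.Agent.JAC.Fibre.RatPlaces67
import Fermat.Agent.JAC.Fibre.DegInf67
import Fermat.Agent.JAC.Fibre.DiagOfDiv38
import Fermat.Agent.FFJ.Fib.SimulPlaces6

set_option autoImplicit false
set_option linter.unusedSectionVars false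

open AlgebraicCurve IsDedekindDomain WithZero Polynomial

namespace Fermat.Agent.FFJ.Fib.AbsFib6

open Fermat.Agent.JAC.Fibre.Lat38 Fermat.Agent.JAC.Fibre.Core38 Fermat.Agent.JAC.Fibre.Chart38
  Fermat.Agent.JAC.Fibre.Setting38 Fermat.Agent.JAC.Fibre.DiagOfDiv38
  Fermat.Agent.JAC.Fibre.RatPlaces67 Fermat.Agent.JAC.Fibre.CurveLikeSub67
  Fermat.Agent.JAC.Cover.AbsCover98 Fermat.Agent.X0.FFDedekind Fermat.Agent.X0.FF

universe u

variable {K : Type u} {F : Type u} [Field K] [Field F] [Algebra K F]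
  {B₀ : Type u} [CommRing B₀] [IsDedekindDomain B₀] [Algebra B₀ F] [IsFractionRing B₀ F]
  [Algebra K B₀] [IsScalarTower K B₀ F]
  {B₁ : Type u} [CommRing B₁] [IsDedekindDomain B₁] [Algebra B₁ F] [IsFractionRing B₁ F]
  [Algebra K B₁] [IsScalarTower K B₁ F]
  {B₀₁ : Type u} [CommRing B₀₁] [IsDedekindDomain B₀₁] [Algebra B₀₁ F] [IsFractionRing B₀₁ F]
  [Algebra K B₀₁] [IsScalarTower K B₀₁ F]
  [Algebra B₀ B₀₁] [Algebra B₁ B₀₁] [IsScalarTower B₀ B₀₁ F] [IsScalarTower B₁ B₀₁ F]
  {t : B₀} {s : B₁}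

/-- The divisor `Σ [Φ]` of a list of `K`-points of a Dedekind chart. -/
noncomputable def ptsDiv {B : Type u} [CommRing B] [IsDedekindDomain B] [Algebra B F]
    [IsFractionRing B F] [Algebra K B] [IsScalarTower K B F] (hB : ¬ IsField B)
    (m : List (B →ₐ[K] K)) : Divisor K F :=
  (m.map fun Φ => Finsupp.single (placeOfAlgHom F hB Φ) (1 : ℤ)).sum

section PtsDiv

variable {B : Type u} [CommRing B] [IsDedekindDomain B] [Algebra B F]
    [IsFractionRing B F] [Algebra K B] [IsScalarTower K B F]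

@[simp] theorem ptsDiv_nil (hB : ¬ IsField B) : ptsDiv (F := F) hB ([] : List (B →ₐ[K] K)) = 0 := rfl

@[simp] theorem ptsDiv_cons (hB : ¬ IsField B) (Φ : B →ₐ[K] K) (m : List (B →ₐ[K] K)) :
    ptsDiv (F := F) hB (Φ :: m) =
      Finsupp.single (placeOfAlgHom F hB Φ) (1 : ℤ) + ptsDiv (F := F) hB m := by
  simp [ptsDiv]

theorem degree_ptsDiv (hB : ¬ IsField B) (m : List (B →ₐ[K] K)) :
    Divisor.degree (ptsDiv (F := F) hB m) = m.length := by
  induction m with
  | nil => simp
  | cons Φ m ih =>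
    rw [ptsDiv_cons, map_add, ih, Divisor.degree_single, deg_placeOfAlgHom]
    simp
    ring

end PtsDiv

/-- A place outside `U₀` is a pole of `t`. -/
theorem ord_tau_neg_of_notMem (S : IsSetting K F t s B₀₁) {v : Place K F}
    (hv : v ∉ chartSet (K := K) (F := F) B₀) : v.ord (algebraMap B₀ F t) < 0 := by
  have hτ0 : algebraMap B₀ F t ≠ 0 := S.tau_ne_zero
  have hτv : algebraMap B₀ F t ∉ v.toValuationSubring :=
    fun h => hv (mem_chartSet_of_mem _ S.hint₀ v h)
  have h1 : ¬ v.adicValuation (algebraMap B₀ F t) ≤ 1 :=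
    fun h => hτv ((mem_iff_adicValuation_le_one v).mpr h)
  rw [v.adicValuation_eq_exp_neg_ord hτ0, ← exp_zero, exp_le_exp] at h1
  omega

/-- There are finitely many places at infinity. -/
theorem finite_compl_chartSet (S : IsSetting K F t s B₀₁)
    (T : TwoChart (chartSet (K := K) (F := F) B₀) (chartSet (K := K) (F := F) B₁)) :
    {v : Place K F | v ∉ chartSet (K := K) (F := F) B₀}.Finite := by
  refine (T.finite_ord_ne_zero _ S.tau_ne_zero).subset ?_
  intro v hv
  have := ord_tau_neg_of_notMem S hv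
  change v.ord (algebraMap B₀ F t) ≠ 0
  omega

/-- **Simultaneous covering theorem with points from a supply**, abstract two-chart setting over an
algebraically closed field. -/
theorem exists_simul_points [IsAlgClosed K] (S : IsSetting K F t s B₀₁)
    (T : TwoChart (chartSet (K := K) (F := F) B₀) (chartSet (K := K) (F := F) B₁))
    (hvan : ∃ E : Divisor K F,
      h1n (chartSet (K := K) (F := F) B₀) (chartSet (K := K) (F := F) B₁) E = 0)
    (hB01 : ¬ IsField B₀₁)
    {J : Type*} (Φ : J → (B₀₁ →ₐ[K] K)) (Sset : Set J)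
    (hS : ((fun j => Φ j (algebraMap B₀ B₀₁ t)) '' Sset).Infinite)
    {ι : Type*} [Finite ι] (D0 : ι → Divisor K F) (hD0 : ∀ i, Divisor.degree (D0 i) = 0)
    (n : ℕ) (hn : chi (chartSet (K := K) (F := F) B₀) (chartSet (K := K) (F := F) B₁) 0 = 1 - n) :
    ∃ l : List J, (l.map Φ).Nodup ∧ (∀ j ∈ l, j ∈ Sset) ∧ l.length = n ∧
      ∀ i,
        h1n (chartSet (K := K) (F := F) B₀) (chartSet (K := K) (F := F) B₁)
          (D0 i + ptsDiv hB01 (l.map Φ)) = 0 ∧
        h0n (chartSet (K := K) (F := F) B₀) (chartSet (K := K) (F := F) B₁)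
          (D0 i + ptsDiv hB01 (l.map Φ)) = 1 ∧
        ∀ v : Place K F, v ∉ chartSet (K := K) (F := F) B₀ →
          h0n (chartSet (K := K) (F := F) B₀) (chartSet (K := K) (F := F) B₁)
            (D0 i + ptsDiv hB01 (l.map Φ) - Finsupp.single v 1) = 0 := by
  classical
  set U0 := chartSet (K := K) (F := F) B₀ with hU0
  set U1 := chartSet (K := K) (F := F) B₁ with hU1
  have H := Fermat.Agent.JAC.Fibre.Bridge67.twoChartHyp T hvan
  have hn' := hn
  rw [← Fermat.Agent.JAC.Fibre.Bridge67.chi_eq] at hn'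
  have hdeg : ∀ v : Place K F, (id v : Place K F).deg = 1 := fun v =>
    Fermat.Agent.JAC.Fibre.DegInf67.TwoChartPre.deg_eq_one T.toPre v
  -- the supply of places
  let pl : J → Place K F := fun j => placeOfAlgHom F hB01 (Φ j)
  have hSv : (pl '' Sset).Infinite := by
    have h1 : (Φ '' Sset).Infinite := by
      have : ((fun Ψ : B₀₁ →ₐ[K] K => Ψ (algebraMap B₀ B₀₁ t)) '' (Φ '' Sset)).Infinite := by
        rw [Set.image_image]
        exact hS
      exact Set.Infinite.of_image _ this
    have h2 : ((placeOfAlgHom (K := K) F (B := B₀₁) hB01) '' (Φ '' Sset)).Infinite :=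
      h1.image (placeOfAlgHom_injective hB01).injOn
    rw [Set.image_image] at h2
    exact h2
  have hInf : {v : Place K F | v ∉ U0}.Finite := finite_compl_chartSet S T
  obtain ⟨lv, hnd, hl, hlen, hgood⟩ :=
    Fermat.Agent.FFJ.Fib.SimulPlaces6.exists_simul_translate H
      (p := (id : Place K F → Place K F)) Function.injective_id hdeg hSv hInf
      (Set.finite_empty (α := Place K F)) D0 hD0 n hn'
  -- replace the list of places by a list of indices
  obtain ⟨_, j₀, -, -⟩ := hS.nonempty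
  let f : Place K F → J := fun v =>
    if h : ∃ j ∈ Sset, pl j = v then Classical.choose h else j₀
  have hf : ∀ v ∈ pl '' Sset, f v ∈ Sset ∧ pl (f v) = v := by
    intro v hv
    have hv' : ∃ j ∈ Sset, pl j = v := hv
    simp only [f, dif_pos hv']
    exact Classical.choose_spec hv'
  have hlS : ∀ v ∈ lv, v ∈ pl '' Sset := fun v hv => (hl v hv).1
  have hmap : ∀ m : List (Place K F), (∀ v ∈ m, v ∈ pl '' Sset) →
      ((m.map f).map Φ).map (placeOfAlgHom F hB01) = m := by
    intro m
    induction m with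
    | nil => intro _; rfl
    | cons v m ih =>
      intro hm
      rw [List.map_cons, List.map_cons, List.map_cons,
        ih (fun x hx => hm x (List.mem_cons_of_mem _ hx))]
      congr 1
      exact (hf v (hm v List.mem_cons_self)).2
  have hconv : ∀ m : List (Place K F), (∀ v ∈ m, v ∈ pl '' Sset) →
      ptsDiv (F := F) hB01 ((m.map f).map Φ) = pushDiv (id : Place K F → Place K F) (dv m) := by
    intro m hm
    rw [pushDiv_dv, List.map_id]
    unfold ptsDiv
    conv_rhs => rw [← hmap m hm]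
    simp only [List.map_map]
    rfl
  refine ⟨lv.map f, ?_, ?_, by simp [hlen], fun i => ?_⟩
  · apply List.Nodup.of_map (placeOfAlgHom F hB01)
    rw [hmap lv hlS]
    exact hnd
  · intro j hj
    obtain ⟨v, hv, rfl⟩ := List.mem_map.mp hj
    exact (hf v (hlS v hv)).1
  · obtain ⟨g1, g0, gI⟩ := hgood i
    rw [hconv lv hlS]
    refine ⟨?_, ?_, fun v hv => ?_⟩
    · rw [← Fermat.Agent.JAC.Fibre.Bridge67.h1_eq]; exact g1
    · rw [← Fermat.Agent.JAC.Fibre.Bridge67.h0_eq]; exact g0
    · rw [← Fermat.Agent.JAC.Fibre.Bridge67.h0_eq]; exact gI v hv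

end Fermat.Agent.FFJ.Fib.AbsFib6
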