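/-
Programme FFJ (S19), chapter FIB (FIB-R), glue lemmas.  Owner: helper67.

* (G1) `finite_notMem_chartSet`: in the common setting only finitely many places lie outside the
  chart `U₀` (the zeros of `s`);
* (G2) `ptPlace`: the place of a `K`-point `q : A01 →ₐ[k] K` of the overlap (through the chart `0`),
  `ptPlace_injective`, `ptPlace_mem_chartSet`;
* (G3) `mul_prod_ptClassR_eq`: `[O(D)] · ∏_{q ∈ l} [O(q)] = [O(D + Σ_{q ∈ l} [v_q])]`;
* (G4) `degree_eq_zero_of_isDegZeroR`: a divisor whose class has degree zero has degree zero.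
-/
import Mathlib
import Fermat.Agent.JAC.Fibre.DiagPrin38
import Fermat.Agent.FFJ.Core.DegFamilyR65
import Fermat.Agent.FFJ.Val.PtClassCompare67

set_option autoImplicit false
set_option linter.unusedSectionVars false

open AlgebraicCurve IsDedekindDomain WithZero Polynomial TensorProduct

namespace Fermat.Agent.FFJ.Fib.FibGlue67

open Fermat.Agent.JAC.Fibre.Lat38 Fermat.Agent.JAC.Fibre.Core38 Fermat.Agent.JAC.Fibre.Chart38
  Fermat.Agent.JAC.Fibre.Setting38 Fermat.Agent.JAC.Fibre.DiagOfDiv38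
  Fermat.Agent.JAC.Fibre.DiagOps38 Fermat.Agent.JAC.Fibre.DiagPrin38
  Fermat.Agent.JAC.Fibre.RatPlaces67
  Fermat.Agent.JAC.Core.Defs36 Fermat.Agent.JAC.Grp.Diag33
  Fermat.Agent.X0.FFDedekind Fermat.Agent.X0.FF

universe u

/-! ### (G1) Finitely many places at infinity -/

section Abstract

variable {K : Type u} {F : Type u} [Field K] [Field F] [Algebra K F]
  {B₀ : Type u} [CommRing B₀] [IsDedekindDomain B₀] [Algebra B₀ F] [IsFractionRing B₀ F]
  [Algebra K B₀] [IsScalarTower K B₀ F]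
  {B₁ : Type u} [CommRing B₁] [IsDedekindDomain B₁] [Algebra B₁ F] [IsFractionRing B₁ F]
  [Algebra K B₁] [IsScalarTower K B₁ F]
  {B₀₁ : Type u} [CommRing B₀₁] [IsDedekindDomain B₀₁] [Algebra B₀₁ F] [IsFractionRing B₀₁ F]
  [Algebra K B₀₁] [IsScalarTower K B₀₁ F]
  [Algebra B₀ B₀₁] [Algebra B₁ B₀₁] [IsScalarTower B₀ B₀₁ F] [IsScalarTower B₁ B₀₁ F]
  {t : B₀} {s : B₁}

/-- **(G1)** Only finitely many places lie outside the chart `U₀`: they are zeros of `s` on `U₁`. -/
theorem finite_notMem_chartSet (S : IsSetting K F t s B₀₁) :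
    {v : Place K F | v ∉ chartSet (K := K) (F := F) B₀}.Finite := by
  have hs0 : algebraMap B₁ F s ≠ 0 := S.symm.tau_ne_zero
  refine (finite_ord_ne_zero_chart (K := K) (B := B₁) hs0).subset ?_
  intro v hv
  have hv' : v ∉ chartSet (K := K) (F := F) B₀ := hv
  have hcov : v ∈ chartSet (K := K) (F := F) B₀ ∪ chartSet (K := K) (F := F) B₁ := by
    rw [IsSetting_union_eq_univ S]
    trivial
  have hv1 : v ∈ chartSet (K := K) (F := F) B₁ := hcov.resolve_left hv'
  have hv01 : v ∉ chartSet (K := K) (F := F) B₀₁ := fun h =>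
    hv' (chartSet_subset_left (B₀ := B₀) (B₀₁ := B₀₁) h)
  have hpos := S.symm.ord_tau_pos hv1 hv01
  exact ⟨hv1, hpos.ne'⟩

end Abstract

/-! ### The constant family over a base ring -/

section Const

open scoped Fermat.Agent.JAC.Core.ConstFamily36
open Fermat.Agent.JAC.Cover.GraphIdeal98
open Fermat.Agent.FFJ.Core.ClR35 Fermat.Agent.FFJ.Core.DegFamilyR65
  Fermat.Agent.FFJ.Pic.ChartDefR35 Fermat.Agent.FFJ.Pic.SpecD35
  Fermat.Agent.FFJ.Val.PtClassCompare67

variable {k : Type u} [CommRing k] {A0 A1 A01 : Type u} [CommRing A0] [CommRing A1] [CommRing A01]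
  [Algebra k A0] [Algebra k A1] [Algebra k A01] [Algebra A0 A01] [Algebra A1 A01]
  [IsScalarTower k A0 A01] [IsScalarTower k A1 A01] {t : A0} {s : A1}
  [IsLocalization.Away t A01] [IsLocalization.Away s A01]
  (K : Type u) [Field K] [Algebra k K]
  [IsDedekindDomain (K ⊗[k] A0)] [IsDedekindDomain (K ⊗[k] A1)] [IsDedekindDomain (K ⊗[k] A01)]
  (F : Type u) [Field F] [Algebra K F]
  [Algebra (K ⊗[k] A0) F] [IsFractionRing (K ⊗[k] A0) F] [IsScalarTower K (K ⊗[k] A0) F]
  [Algebra (K ⊗[k] A1) F] [IsFractionRing (K ⊗[k] A1) F] [IsScalarTower K (K ⊗[k] A1) F]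
  [Algebra (K ⊗[k] A01) F] [IsFractionRing (K ⊗[k] A01) F] [IsScalarTower K (K ⊗[k] A01) F]
  [IsScalarTower (K ⊗[k] A0) (K ⊗[k] A01) F] [IsScalarTower (K ⊗[k] A1) (K ⊗[k] A01) F]

/-- **(G2)** The place of a `K`-point of the overlap (through the chart `0`). -/
noncomputable def ptPlace (hB0 : ¬ IsField (K ⊗[k] A0)) (q : A01 →ₐ[k] K) : Place K F :=
  placeOfAlgHom F hB0 (graphMap (q.comp (IsScalarTower.toAlgHom k A0 A01)))

theorem ptPlace_mem_chartSet (hB0 : ¬ IsField (K ⊗[k] A0)) (q : A01 →ₐ[k] K) :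
    ptPlace K F hB0 q ∈ chartSet (K := K) (F := F) (K ⊗[k] A0) :=
  placeOfAlgHom_mem_chartSet hB0 _

theorem ptPlace_deg (hB0 : ¬ IsField (K ⊗[k] A0)) (q : A01 →ₐ[k] K) :
    (ptPlace K F hB0 q).deg = 1 :=
  deg_placeOfAlgHom hB0 _

include t in
/-- **(G2)** Distinct points of the overlap have distinct places. -/
theorem ptPlace_injective (hB0 : ¬ IsField (K ⊗[k] A0)) :
    Function.Injective (ptPlace (k := k) (A0 := A0) (A01 := A01) K F hB0) := by
  intro q q' h
  have h1 : graphMap (q.comp (IsScalarTower.toAlgHom k A0 A01)) =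
      graphMap (q'.comp (IsScalarTower.toAlgHom k A0 A01)) :=
    placeOfAlgHom_injective (F := F) hB0 h
  have h2 : ∀ a : A0, q (algebraMap A0 A01 a) = q' (algebraMap A0 A01 a) := by
    intro a
    have := congrArg (fun Φ : K ⊗[k] A0 →ₐ[K] K => Φ ((1 : K) ⊗ₜ[k] a)) h1
    simpa [graphMap_tmul] using this
  have h3 : (q : A01 →+* K) = (q' : A01 →+* K) :=
    IsLocalization.ringHom_ext (Submonoid.powers t) (RingHom.ext h2)
  exact AlgHom.ext fun x => congrArg (fun f : A01 →+* K => f x) h3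

variable {K F}

/-- **(G3)** `[O(D)] · ∏_{q ∈ l} [O(q)] = [O(D + Σ_{q ∈ l} [v_q])]`. -/
theorem mul_prod_ptClassR_eq (H : CurveHypR k A0 A1 A01 t s)
    (S : IsSetting K F ((1 : K) ⊗ₜ[k] t) ((1 : K) ⊗ₜ[k] s) (K ⊗[k] A01))
    (hB0 : ¬ IsField (K ⊗[k] A0)) (D : Divisor K F) (l : List (A01 →ₐ[k] K)) :
    (cls (lineDiagOfDiv S D) : ClR k A0 A1 A01 t s K) *
        (l.map fun q => ptClassR (A1 := A1) (A01 := A01) (t := t) (s := s) H.hts
          (q.comp (IsScalarTower.toAlgHom k A0 A01))).prod =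
      cls (lineDiagOfDiv S
        (D + (l.map fun q => Finsupp.single (ptPlace K F hB0 q) (1 : ℤ)).sum)) := by
  induction l generalizing D with
  | nil => simp
  | cons q l ih =>
    rw [List.map_cons, List.prod_cons, List.map_cons, List.sum_cons, ← mul_assoc,
      ptClassR_eq_cls_lineDiagOfDiv K H S hB0 (q.comp (IsScalarTower.toAlgHom k A0 A01)),
      cls_mul_lineDiagOfDiv, ih, add_assoc]
    rfl

/-- **(G4)** A divisor whose class has degree zero on the geometric fibres has degree zero. -/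
theorem degree_eq_zero_of_isDegZeroR (H : CurveHypR k A0 A1 A01 t s)
    (S : IsSetting K F ((1 : K) ⊗ₜ[k] t) ((1 : K) ⊗ₜ[k] s) (K ⊗[k] A01))
    (T : TwoChart (chartSet (K := K) (F := F) (K ⊗[k] A0))
      (chartSet (K := K) (F := F) (K ⊗[k] A1)))
    (D : Divisor K F)
    (h : IsDegZeroR K (cls (lineDiagOfDiv S D) : ClR k A0 A1 A01 t s K)) :
    Divisor.degree D = 0 := by
  obtain ⟨n0, a0, ha0⟩ := H.coords0
  obtain ⟨n1, a1, ha1⟩ := H.coords1
  rw [← degClass_cls_lineDiagOfDiv S T D]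
  exact (isDegZeroR_field_iff H.hts a0 ha0 a1 ha1 _).mp h

end Const

end Fermat.Agent.FFJ.Fib.FibGlue67
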