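/-
Programme FFJ (S19), brick FIB (helper6), part (F3b): the "good chart" conditions for the line
diagram `O(D)` of a divisor (as in `JAC/Fibre/GoodDiv67`, `CovWire67.good_lineDiagOfDiv` of
helper67) TOGETHER WITH the non-vanishing of the generating section at finitely many prescribed
points of the chart `U₀`.

* `not_zeroIdeal_le_ker` : a section `σ` of `O(D)` on the chart `B₀` of exact order `-D v` at the
  place `v` of a `K`-point `Φ : B₀ →ₐ[K] K` does not vanish at that point: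
  `¬ zeroIdeal B₀ σ ≤ ker Φ` (the point does not lie on the divisor of zeros of `σ`).
* `good_lineDiagOfDiv_avoid` : `h¹(D) = 0`, `h⁰(D) = 1`, `h⁰(D - v) = 0` for `v` at infinity or in a
  set `Zv` of places ⇒ the three conditions of `GoodAt` for `O(D)` for a section of exact order
  `-D v` at all `v ∈ Zv`.
-/
import Mathlib
import Fermat.Agent.JAC.Fibre.GoodDiv67
import Fermat.Agent.JAC.Fibre.RatPlaces67
import Fermat.Agent.JAC.Hilb.ZeroIdeal46
import Fermat.Agent.JAC.Hilb.GenSection46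

set_option autoImplicit false
set_option linter.unusedSectionVars false

open AlgebraicCurve IsDedekindDomain WithZero Polynomial Pointwise

namespace Fermat.Agent.FFJ.Fib.GoodAvoid6

open Fermat.Agent.JAC.Fibre.Lat38 Fermat.Agent.JAC.Fibre.Core38 Fermat.Agent.JAC.Fibre.Chart38
  Fermat.Agent.JAC.Fibre.Setting38 Fermat.Agent.JAC.Fibre.DiagOfDiv38
  Fermat.Agent.JAC.Core.Defs36 Fermat.Agent.X0.FFDedekind Fermat.Agent.X0.FF
  Fermat.Agent.JAC.Fibre.RatPlaces67 Fermat.Agent.JAC.Hilb.ZeroIdeal46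

universe u

variable {K : Type u} {F : Type u} [Field K] [Field F] [Algebra K F]
  {B₀ : Type u} [CommRing B₀] [IsDedekindDomain B₀] [Algebra B₀ F] [IsFractionRing B₀ F]
  [Algebra K B₀] [IsScalarTower K B₀ F]

/-- Elements of `ker Φ • O(D)` vanish to order `> -D v` at the place `v` of the `K`-point `Φ`. -/
theorem adicValuation_le_of_mem_ker_smul (hB : ¬ IsField B₀) (Φ : B₀ →ₐ[K] K) (D : Divisor K F)
    {x : ↥(latMod B₀ D)}
    (hx : x ∈ (RingHom.ker (Φ : B₀ →+* K)) • (⊤ : Submodule B₀ ↥(latMod B₀ D))) :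
    (placeOfAlgHom F hB Φ).adicValuation (x : F) ≤
      exp (D (placeOfAlgHom F hB Φ) - 1) := by
  set v := placeOfAlgHom F hB Φ with hv
  have hvU : v ∈ chartSet (K := K) (F := F) B₀ := placeOfAlgHom_mem_chartSet hB Φ
  refine Submodule.smul_induction_on hx ?_ ?_
  · intro m hm g _
    have hg : v.adicValuation ((g : ↥(latMod B₀ D)) : F) ≤ exp (D v) :=
      (mem_latMod_iff.mp g.2) v hvU
    have hcoe : ((m • g : ↥(latMod B₀ D)) : F) = algebraMap B₀ F m * (g : F) := by
      rw [Submodule.coe_smul, Algebra.smul_def]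
    rw [hcoe, map_mul]
    rcases eq_or_ne m 0 with rfl | hm0
    · simp
    · have hm' : Φ m = 0 := hm
      have hpos : 0 < v.ord (algebraMap B₀ F m) :=
        (ord_placeOfAlgHom_pos_iff hB Φ hm0).mpr hm'
      have hm0' : algebraMap B₀ F m ≠ 0 := by
        intro h0
        exact hm0 ((IsFractionRing.injective B₀ F) (by rw [h0, map_zero]))
      have h1 : v.adicValuation (algebraMap B₀ F m) ≤ exp (-1) := by
        rw [v.adicValuation_eq_exp_neg_ord hm0', exp_le_exp]
        omega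
      calc v.adicValuation (algebraMap B₀ F m) * v.adicValuation (g : F)
          ≤ exp (-1) * exp (D v) := mul_le_mul' h1 hg
        _ = exp (D v - 1) := by rw [← exp_add]; congr 1; ring
  · intro x y hx hy
    rw [Submodule.coe_add]
    exact (Valuation.map_add _ _ _).trans (max_le hx hy)

/-- **Non-vanishing at a point.**  A section of `O(D)` on the chart `B₀` of exact order `-D v` at
the place `v` of the `K`-point `Φ` does not vanish at `Φ`: its zero ideal is not contained in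
`ker Φ`. -/
theorem not_zeroIdeal_le_ker (hB : ¬ IsField B₀) (Φ : B₀ →ₐ[K] K) (D : Divisor K F)
    (σ : ↥(latMod B₀ D)) (hσ0 : (σ : F) ≠ 0)
    (hord : (placeOfAlgHom F hB Φ).ord (σ : F) = -D (placeOfAlgHom F hB Φ)) :
    ¬ zeroIdeal B₀ σ ≤ RingHom.ker (Φ : B₀ →+* K) := by
  intro hle
  have hmem : σ ∈ (RingHom.ker (Φ : B₀ →+* K)) • (⊤ : Submodule B₀ ↥(latMod B₀ D)) := by
    have h1 : σ ∈ Submodule.span B₀ {σ} := Submodule.mem_span_singleton_self σ
    rw [← zeroIdeal_smul_top σ] at h1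
    exact Submodule.smul_mono_left hle h1
  have h2 := adicValuation_le_of_mem_ker_smul hB Φ D hmem
  rw [(placeOfAlgHom F hB Φ).adicValuation_eq_exp_neg_ord hσ0, hord, exp_le_exp] at h2
  omega

variable
  {B₁ : Type u} [CommRing B₁] [IsDedekindDomain B₁] [Algebra B₁ F] [IsFractionRing B₁ F]
  [Algebra K B₁] [IsScalarTower K B₁ F]
  {B₀₁ : Type u} [CommRing B₀₁] [IsDedekindDomain B₀₁] [Algebra B₀₁ F] [IsFractionRing B₀₁ F]
  [Algebra K B₀₁] [IsScalarTower K B₀₁ F]
  [Algebra B₀ B₀₁] [Algebra B₁ B₀₁] [IsScalarTower B₀ B₀₁ F] [IsScalarTower B₁ B₀₁ F]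
  {t : B₀} {s : B₁}

/-- The value in `F` of a section of `O(D)` on the chart `B₀`. -/
def val0 (S : IsSetting K F t s B₀₁) (D : Divisor K F) (σ0 : (lineDiagOfDiv S D).M0) : F :=
  ((show ↥(latMod B₀ D) from σ0) : F)

/-- `not_zeroIdeal_le_ker` for sections of the line diagram `O(D)`. -/
theorem not_zeroIdeal_le_ker_lineDiagOfDiv (S : IsSetting K F t s B₀₁) (hB : ¬ IsField B₀)
    (Φ : B₀ →ₐ[K] K) (D : Divisor K F) (σ0 : (lineDiagOfDiv S D).M0) (hσ0 : val0 S D σ0 ≠ 0)
    (hord : (placeOfAlgHom F hB Φ).ord (val0 S D σ0) = -D (placeOfAlgHom F hB Φ)) :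
    ¬ zeroIdeal B₀ σ0 ≤ RingHom.ker (Φ : B₀ →+* K) :=
  not_zeroIdeal_le_ker hB Φ D (show ↥(latMod B₀ D) from σ0) hσ0 hord

/-- The three `GoodAt` conditions for `O(D')` from the divisor conditions, for a generating section
which has exact order `-D' v` at every place `v` of a prescribed set `Zv` with `h⁰(D' - v) = 0`. -/
theorem good_lineDiagOfDiv_avoid (S : IsSetting K F t s B₀₁)
    (T : TwoChart (chartSet (K := K) (F := F) B₀) (chartSet (K := K) (F := F) B₁))
    (hvan : ∃ E : Divisor K F,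
      h1n (chartSet (K := K) (F := F) B₀) (chartSet (K := K) (F := F) B₁) E = 0)
    (D' : Divisor K F)
    (h1 : h1n (chartSet (K := K) (F := F) B₀) (chartSet (K := K) (F := F) B₁) D' = 0)
    (h0 : h0n (chartSet (K := K) (F := F) B₀) (chartSet (K := K) (F := F) B₁) D' = 1)
    (hI : ∀ v : Place K F, v ∉ chartSet (K := K) (F := F) B₀ →
      h0n (chartSet (K := K) (F := F) B₀) (chartSet (K := K) (F := F) B₁)
        (D' - Finsupp.single v 1) = 0)
    (Zv : Set (Place K F))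
    (hZ : ∀ v ∈ Zv, h0n (chartSet (K := K) (F := F) B₀) (chartSet (K := K) (F := F) B₁)
        (D' - Finsupp.single v 1) = 0) :
    ∃ (σ0 : (lineDiagOfDiv S D').M0) (σ1 : (lineDiagOfDiv S D').M1),
      (∀ z : (lineDiagOfDiv S D').M01, ∃ (x : (lineDiagOfDiv S D').M0)
        (y : (lineDiagOfDiv S D').M1),
        (lineDiagOfDiv S D').rho0 x - (lineDiagOfDiv S D').rho1 y = z) ∧
      Fermat.Agent.JAC.Hilb.GenSection46.Generates K (lineDiagOfDiv S D') σ0 σ1 ∧
      Fermat.Agent.JAC.Hilb.GenSection46.IsFaithfulSection K (lineDiagOfDiv S D') σ0 σ1 ∧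
      Submodule.span B₁ {σ1} ⊔
        Ideal.span {s} • (⊤ : Submodule B₁ (lineDiagOfDiv S D').M1) = ⊤ ∧
      val0 S D' σ0 ≠ 0 ∧ ∀ v ∈ Zv, v.ord (val0 S D' σ0) = -D' v := by
  obtain ⟨σ, hσ0, hσU0, hσU1, huniq⟩ :=
    Fermat.Agent.JAC.Fibre.GoodDiv67.exists_generator_of_h0n_eq_one D' h0
  have hord : ∀ v : Place K F,
      v ∉ chartSet (K := K) (F := F) B₀ → v.ord σ = -D' v := fun v hv =>
    Fermat.Agent.JAC.Fibre.GoodDiv67.ord_eq_neg_of_h0n_sub_single_eq_zero T hvan (hI v hv) hσ0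
      hσU0 hσU1
  refine ⟨(⟨σ, mem_latMod_iff.mpr hσU0⟩ : ↥(latMod B₀ D')),
    (⟨σ, mem_latMod_iff.mpr hσU1⟩ : ↥(latMod B₁ D')),
    Fermat.Agent.JAC.Fibre.GoodDiv67.h1Zero_of_h1n_eq_zero S T D' h1, ⟨?_, ?_⟩, ?_,
    Fermat.Agent.JAC.Fibre.GoodDiv67.span_sup_idealSpan_smul_eq_top S D' hσ0 hσU1 hord, hσ0,
    fun v hv => Fermat.Agent.JAC.Fibre.GoodDiv67.ord_eq_neg_of_h0n_sub_single_eq_zero T hvan
      (hZ v hv) hσ0 hσU0 hσU1⟩
  · exact Subtype.ext rfl
  · intro x y hxy
    obtain ⟨x, hx⟩ : ↥(latMod B₀ D') := x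
    obtain ⟨y, hy⟩ : ↥(latMod B₁ D') := y
    have hxy' : x = y := congrArg Subtype.val hxy
    obtain ⟨c, hc, -⟩ := huniq x (mem_latMod_iff.mp hx) (hxy' ▸ mem_latMod_iff.mp hy)
    refine ⟨c, ?_, ?_⟩
    · apply Subtype.ext
      change x = algebraMap K B₀ c • σ
      rw [Algebra.smul_def, ← IsScalarTower.algebraMap_apply K B₀ F]
      exact hc
    · apply Subtype.ext
      change y = algebraMap K B₁ c • σ
      rw [Algebra.smul_def, ← IsScalarTower.algebraMap_apply K B₁ F, ← hxy']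
      exact hc
  · intro c hc _
    have h := congrArg Subtype.val hc
    change algebraMap K B₀ c • σ = 0 at h
    rw [Algebra.smul_def, ← IsScalarTower.algebraMap_apply K B₀ F] at h
    rcases mul_eq_zero.mp h with h | h
    · exact (map_eq_zero_iff _ (algebraMap K F).injective).mp h
    · exact absurd h hσ0

end Fermat.Agent.FFJ.Fib.GoodAvoid6
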