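/-
Programme FFJ (S19), brick (D2) FIB-R (helper6), part 2: THE DEGREE OF THE DIVISOR OF ZEROS of a
section of `O(D)` on a Dedekind chart, in the language of helper46's `zeroIdeal`.

`B` a Dedekind chart of a two-chart curve with function field `F / K`, `σ0 : latMod B D` a section of
`O(D)` over the chart with nonzero value `σ ∈ F`.  Then `zeroIdeal B σ0 ⊆ B` is the ideal
`{b | ord_v b ≥ D v + ord_v σ on the chart}` (`mem_zeroIdeal_iff`) and, for an effective divisor `E`
supported in the chart with `E = D + div σ` there, `dim_K (B ⧸ zeroIdeal B σ0) = deg E`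
(`finrank_quotient_zeroIdeal`).  For a global section without zeros outside the chart this is `deg D`
(`finrank_quotient_zeroIdeal_eq_degree`).
-/
import Mathlib
import Fermat.Agent.JAC.Fibre.DiagPrin38
import Fermat.Agent.JAC.Fibre.DegInf67
import Fermat.Agent.JAC.Hilb.ZeroIdeal46

set_option autoImplicit false
set_option linter.unusedSectionVars false

open AlgebraicCurve IsDedekindDomain WithZero Polynomial nonZeroDivisors

namespace Fermat.Agent.FFJ.Fib.RankZero6

open Fermat.Agent.JAC.Fibre.RelRank38 Fermat.Agent.JAC.Fibre.Lat38 Fermat.Agent.JAC.Fibre.Core38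
  Fermat.Agent.JAC.Fibre.Chart38 Fermat.Agent.JAC.Fibre.Setting38
  Fermat.Agent.JAC.Fibre.DiagOfDiv38 Fermat.Agent.JAC.Fibre.DiagPrin38
  Fermat.Agent.JAC.Fibre.DegInf67 Fermat.Agent.JAC.Hilb.ZeroIdeal46
  Fermat.Agent.JAC.FF.LatIdeal9 Fermat.Agent.X0.FF

universe u

variable {K : Type u} {F : Type u} [Field K] [Field F] [Algebra K F]
  {B : Type u} [CommRing B] [IsDedekindDomain B] [Algebra B F] [IsFractionRing B F]
  [Algebra K B] [IsScalarTower K B F]

/-- `O(-E) = O(E)⁻¹`, membership form: `g ∈ O(-E)` iff `g · O(E) ⊆ B`. -/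
theorem mem_latMod_neg_iff (E : Divisor K F) (g : F) :
    g ∈ latMod B (-E) ↔ ∀ y ∈ latMod B E, ∃ b : B, algebraMap B F b = g * y := by
  unfold latMod
  rw [idealOfDiv_neg, FractionalIdeal.mem_coe,
    FractionalIdeal.mem_inv_iff (idealOfDiv_ne_zero B E)]
  refine forall₂_congr fun y _ => ?_
  rw [FractionalIdeal.mem_one_iff]

/-- The zero ideal of the section `1` of `O(E)`, `E` effective on the chart, is `O(-E) ∩ B`. -/
theorem mem_zeroIdeal_one_iff (E : Divisor K F) (h1 : (1 : F) ∈ latMod B E) (b : B) :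
    b ∈ zeroIdeal B (⟨1, h1⟩ : ↥(latMod B E)) ↔ algebraMap B F b ∈ latMod B (-E) := by
  constructor
  · rintro ⟨lam, hlam⟩
    rw [mem_latMod_neg_iff]
    let φ : ↥(latMod B E) →ₗ[B] ↥(LinearMap.range (Algebra.linearMap B F)) :=
      (Algebra.linearMap B F).rangeRestrict ∘ₗ lam
    obtain ⟨g, hg⟩ := exists_mul_of_linearMap (F := F) φ
    have hg' : ∀ x : ↥(latMod B E), algebraMap B F (lam x) = g * (x : F) := hg
    have hgb : g = algebraMap B F b := by
      have h := hg' ⟨1, h1⟩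
      rw [mul_one] at h
      rw [← h]
      exact congrArg _ hlam
    intro y hy
    exact ⟨lam ⟨y, hy⟩, by rw [hg' ⟨y, hy⟩, hgb]⟩
  · intro hb
    rw [mem_latMod_neg_iff] at hb
    have hinj : Function.Injective (Algebra.linearMap B F) := IsFractionRing.injective B F
    let m : ↥(latMod B E) →ₗ[B] F :=
      (LinearMap.mulLeft B (algebraMap B F b)) ∘ₗ (latMod B E).subtype
    have hm : ∀ x : ↥(latMod B E), m x ∈ LinearMap.range (Algebra.linearMap B F) := by
      intro x
      obtain ⟨b', hb'⟩ := hb x x.2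
      exact ⟨b', hb'⟩
    let lam : ↥(latMod B E) →ₗ[B] B :=
      (LinearEquiv.ofInjective (Algebra.linearMap B F) hinj).symm.toLinearMap ∘ₗ
        (m.codRestrict _ hm)
    refine ⟨lam, ?_⟩
    change (LinearEquiv.ofInjective (Algebra.linearMap B F) hinj).symm
      ((m.codRestrict _ hm) ⟨1, h1⟩) = b
    rw [LinearEquiv.symm_apply_eq]
    apply Subtype.ext
    change algebraMap B F b * 1 = algebraMap B F b
    rw [mul_one]

/-- **The zero ideal of a section of `O(D)` on a chart**: `b ∈ zeroIdeal σ0` iff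
`ord_v b ≥ D v + ord_v σ` for all places `v` of the chart. -/
theorem mem_zeroIdeal_iff {D : Divisor K F} (σ0 : ↥(latMod B D)) (hσ : (σ0 : F) ≠ 0)
    (E : Divisor K F) (hE : ∀ v ∈ chartSet (K := K) (F := F) B, E v = D v + v.ord (σ0 : F))
    (b : B) : b ∈ zeroIdeal B σ0 ↔ algebraMap B F b ∈ latMod B (-E) := by
  have hE' : ∀ v ∈ chartSet (K := K) (F := F) B, D v = E v + v.ord (σ0 : F)⁻¹ := by
    intro v hv
    rw [hE v hv, v.ord_inv]
    ring
  have hE'' : ∀ v ∈ chartSet (K := K) (F := F) B, E v = D v + v.ord ((σ0 : F)⁻¹)⁻¹ := by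
    intro v hv
    rw [inv_inv]
    exact hE v hv
  let e : ↥(latMod B D) ≃ₗ[B] ↥(latMod B E) :=
    Fermat.Agent.JAC.FF.LineDiagDiv9.mulEquivOfMem (latMod B D) (latMod B E) (σ0 : F)⁻¹
      (inv_ne_zero hσ) (fun _ hf => mul_mem_latMod hE' hf) (fun _ hf => mul_mem_latMod hE'' hf)
  have h1 : (1 : F) ∈ latMod B E := by
    have := (e σ0).2
    have h2 : ((e σ0 : ↥(latMod B E)) : F) = 1 := by
      change (σ0 : F)⁻¹ * (σ0 : F) = 1
      exact inv_mul_cancel₀ hσ
    rwa [h2] at this
  have he : e σ0 = ⟨1, h1⟩ := by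
    apply Subtype.ext
    change (σ0 : F)⁻¹ * (σ0 : F) = 1
    exact inv_mul_cancel₀ hσ
  rw [← zeroIdeal_equiv e σ0, he]
  exact mem_zeroIdeal_one_iff E h1 b

/-- The zero ideal of a section, as a `K`-subspace of `F`, is the lattice `lat U (-E)`. -/
theorem map_zeroIdeal_eq_lat {D : Divisor K F} (σ0 : ↥(latMod B D)) (hσ : (σ0 : F) ≠ 0)
    (E : Divisor K F) (hE0 : 0 ≤ E)
    (hE : ∀ v ∈ chartSet (K := K) (F := F) B, E v = D v + v.ord (σ0 : F)) :
    ((zeroIdeal B σ0).restrictScalars K).map (toF K B) =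
      lat (chartSet (K := K) (F := F) B) (-E) := by
  ext f
  simp only [Submodule.mem_map, Submodule.restrictScalars_mem, toF_apply]
  constructor
  · rintro ⟨b, hb, rfl⟩
    exact mem_latMod_iff.mp ((mem_zeroIdeal_iff σ0 hσ E hE b).mp hb)
  · intro hf
    have hf0 : f ∈ lat (chartSet (K := K) (F := F) B) 0 :=
      lat_mono _ (neg_nonpos.mpr hE0) hf
    obtain ⟨b, rfl⟩ := mem_lat_chartSet_zero_iff.mp hf0
    exact ⟨b, (mem_zeroIdeal_iff σ0 hσ E hE b).mpr (mem_latMod_iff.mpr hf), rfl⟩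

/-- **Degree of the divisor of zeros of a section on a Dedekind chart**: if the effective divisor
`E` is supported in the chart of `B` and equals `D + div σ` there, then
`dim_K (B ⧸ zeroIdeal σ0) = deg E`. -/
theorem finrank_quotient_zeroIdeal {U₀ U₁ : Set (Place K F)} (T : TwoChartPre U₀ U₁)
    {D : Divisor K F} (σ0 : ↥(latMod B D)) (hσ : (σ0 : F) ≠ 0)
    (E : Divisor K F) (hE0 : 0 ≤ E)
    (hE : ∀ v ∈ chartSet (K := K) (F := F) B, E v = D v + v.ord (σ0 : F))
    (hsupp : ∀ v, v ∉ chartSet (K := K) (F := F) B → E v = 0) :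
    (Module.finrank K (B ⧸ zeroIdeal B σ0) : ℤ) = Divisor.degree E := by
  obtain ⟨d, hd, hrel⟩ := relrank_lat_add_effective T
    (isChart_chartSet (K := K) (F := F) (B := B)) (-E) hE0 hsupp
  rw [neg_add_cancel, ← map_zeroIdeal_eq_lat σ0 hσ E hE0 hE, lat_chartSet_zero] at hrel
  have h := relrank_map_range (toF K B) (toF_injective (K := K) (F := F) (B := B))
    ((zeroIdeal B σ0).restrictScalars K)
  rw [hrel] at h
  have hrank : Module.rank K (B ⧸ (zeroIdeal B σ0).restrictScalars K) = (d : Cardinal.{u}) := by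
    apply Cardinal.lift_injective.{u}
    rw [← h]
  have hrank' : Module.rank K (B ⧸ zeroIdeal B σ0) = (d : Cardinal.{u}) := by
    rw [← hrank]
    exact (Submodule.Quotient.restrictScalarsEquiv K (zeroIdeal B σ0)).rank_eq.symm
  rw [← hd, Module.finrank, hrank']
  simp

end Fermat.Agent.FFJ.Fib.RankZero6
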