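/-
Programme FFJ (S19), brick (D2) FIB-R (helper6), part 3: the "good chart" conditions for the line
diagram `O(D')` of a divisor (as in `JAC/Fibre/CovWire67.good_lineDiagOfDiv`), in the ABSTRACT
two-chart setting, TOGETHER WITH THE RANK of the ring of zeros of the generating section:

`h¹(D') = 0`, `h⁰(D') = 1`, `h⁰(D' - v) = 0` for all `v` at infinity  ⇒  `O(D')` has `H¹ = 0`, a
generating faithful section `(σ0, σ1)` without zero at infinity, and
`dim_K (B₀ ⧸ zeroIdeal B₀ σ0) = deg D'`.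
-/
import Mathlib
import Fermat.Agent.FFJ.Fib.GoodAvoid6
import Fermat.Agent.FFJ.Fib.RankZero6

set_option autoImplicit false
set_option linter.unusedSectionVars false

open AlgebraicCurve IsDedekindDomain WithZero Polynomial Pointwise

namespace Fermat.Agent.FFJ.Fib.GoodRank6

open Fermat.Agent.JAC.Fibre.Lat38 Fermat.Agent.JAC.Fibre.Core38 Fermat.Agent.JAC.Fibre.Chart38
  Fermat.Agent.JAC.Fibre.Setting38 Fermat.Agent.JAC.Fibre.DiagOfDiv38
  Fermat.Agent.JAC.Core.Defs36 Fermat.Agent.X0.FFDedekind Fermat.Agent.X0.FF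
  Fermat.Agent.JAC.Hilb.ZeroIdeal46 Fermat.Agent.FFJ.Fib.GoodAvoid6 Fermat.Agent.FFJ.Fib.RankZero6

universe u

variable {K : Type u} {F : Type u} [Field K] [Field F] [Algebra K F]
  {B₀ : Type u} [CommRing B₀] [IsDedekindDomain B₀] [Algebra B₀ F] [IsFractionRing B₀ F]
  [Algebra K B₀] [IsScalarTower K B₀ F]
  {B₁ : Type u} [CommRing B₁] [IsDedekindDomain B₁] [Algebra B₁ F] [IsFractionRing B₁ F]
  [Algebra K B₁] [IsScalarTower K B₁ F]
  {B₀₁ : Type u} [CommRing B₀₁] [IsDedekindDomain B₀₁] [Algebra B₀₁ F] [IsFractionRing B₀₁ F]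
  [Algebra K B₀₁] [IsScalarTower K B₀₁ F]
  [Algebra B₀ B₀₁] [Algebra B₁ B₀₁] [IsScalarTower B₀ B₀₁ F] [IsScalarTower B₁ B₀₁ F]
  {t : B₀} {s : B₁}

/-- **Degree of the divisor of zeros of a section of `O(D)` without zeros at infinity.** -/
theorem finrank_quotient_zeroIdeal_eq_degree (S : IsSetting K F t s B₀₁)
    (T : TwoChart (chartSet (K := K) (F := F) B₀) (chartSet (K := K) (F := F) B₁))
    (D : Divisor K F) (σ0 : (lineDiagOfDiv S D).M0) (hσ : val0 S D σ0 ≠ 0)
    (hord : ∀ v : Place K F, v ∉ chartSet (K := K) (F := F) B₀ → v.ord (val0 S D σ0) = -D v) :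
    (Module.finrank K (B₀ ⧸ zeroIdeal B₀ σ0) : ℤ) = Divisor.degree D := by
  set τ0 : ↥(latMod B₀ D) := σ0 with hτ0
  have hσ' : (τ0 : F) ≠ 0 := hσ
  set E : Divisor K F := D + T.div (τ0 : F) hσ' with hE
  have hEv : ∀ v : Place K F, E v = D v + v.ord (τ0 : F) := fun v => by
    rw [hE, Finsupp.add_apply, TwoChart.div_apply]
  have hmem : (τ0 : F) ∈ lat (chartSet (K := K) (F := F) B₀) D := mem_latMod_iff.mp τ0.2
  have hsupp : ∀ v, v ∉ chartSet (K := K) (F := F) B₀ → E v = 0 := by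
    intro v hv
    have h := hord v hv
    change v.ord (τ0 : F) = -D v at h
    rw [hEv, h]
    ring
  have hE0 : 0 ≤ E := by
    rw [Finsupp.le_def]
    intro v
    by_cases hv : v ∈ chartSet (K := K) (F := F) B₀
    · have h := (mem_lat_iff_ord.mp hmem v hv).resolve_left hσ'
      rw [hEv]
      simp only [Finsupp.coe_zero, Pi.zero_apply]
      omega
    · rw [hsupp v hv]
      simp
  have h := finrank_quotient_zeroIdeal T.toPre τ0 hσ' E hE0 (fun v _ => hEv v) hsupp
  rw [hE, map_add, T.degree_div, add_zero] at h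
  exact h

/-- **The `GoodAt` conditions for `O(D')` with the rank of the divisor of the section.** -/
theorem good_lineDiagOfDiv_rank (S : IsSetting K F t s B₀₁)
    (T : TwoChart (chartSet (K := K) (F := F) B₀) (chartSet (K := K) (F := F) B₁))
    (hvan : ∃ E : Divisor K F,
      h1n (chartSet (K := K) (F := F) B₀) (chartSet (K := K) (F := F) B₁) E = 0)
    (D' : Divisor K F)
    (h1 : h1n (chartSet (K := K) (F := F) B₀) (chartSet (K := K) (F := F) B₁) D' = 0)
    (h0 : h0n (chartSet (K := K) (F := F) B₀) (chartSet (K := K) (F := F) B₁) D' = 1)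
    (hI : ∀ v : Place K F, v ∉ chartSet (K := K) (F := F) B₀ →
      h0n (chartSet (K := K) (F := F) B₀) (chartSet (K := K) (F := F) B₁)
        (D' - Finsupp.single v 1) = 0) :
    ∃ (σ0 : (lineDiagOfDiv S D').M0) (σ1 : (lineDiagOfDiv S D').M1),
      (∀ z : (lineDiagOfDiv S D').M01, ∃ (x : (lineDiagOfDiv S D').M0)
        (y : (lineDiagOfDiv S D').M1),
        (lineDiagOfDiv S D').rho0 x - (lineDiagOfDiv S D').rho1 y = z) ∧
      Fermat.Agent.JAC.Hilb.GenSection46.Generates K (lineDiagOfDiv S D') σ0 σ1 ∧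
      Fermat.Agent.JAC.Hilb.GenSection46.IsFaithfulSection K (lineDiagOfDiv S D') σ0 σ1 ∧
      Submodule.span B₁ {σ1} ⊔
        Ideal.span {s} • (⊤ : Submodule B₁ (lineDiagOfDiv S D').M1) = ⊤ ∧
      (Module.finrank K (B₀ ⧸ zeroIdeal B₀ σ0) : ℤ) = Divisor.degree D' := by
  obtain ⟨σ0, σ1, hH1, hgen, hfaith, hinf, hval, hord⟩ :=
    good_lineDiagOfDiv_avoid S T hvan D' h1 h0 hI
      {v : Place K F | v ∉ chartSet (K := K) (F := F) B₀} (fun v hv => hI v hv)
  exact ⟨σ0, σ1, hH1, hgen, hfaith, hinf,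
    finrank_quotient_zeroIdeal_eq_degree S T D' σ0 hval (fun v hv => hord v hv)⟩

end Fermat.Agent.FFJ.Fib.GoodRank6
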