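/-
Programme FFJ (S19), brick (D2) FIB-R (helper6): `fibR : Fermat.Agent.FFJ.Pic.SpecD35.FibStatement`.

CURVE data `(A0 → A01 ← A1; t, s)` over a commutative BASE RING `k` (`ChartDefR35.CurveHypR`), `K` an
ALGEBRAICALLY CLOSED field over `k`.  For finitely many classes `ξ i : ClR k A0 A1 A01 t s K` of degree
zero and a supply `S` of `K`-points `q : A01 →ₐ[k] K` of the overlap with infinitely many `t`-values,
there are distinct `q_1, …, q_g ∈ S` (`g` the genus of the fibre) such that ALL the classes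
`ξ i * [O(q_1 + ⋯ + q_g)]` are good (`H¹ = 0`, `H⁰` free of rank one on a section without zero at
infinity) with the same rank `g` of the ring of zeros of the section.

* `ptClassR_eq`      : `Fermat.Agent.FFJ.Pic.SpecD35.ptClassR hts φ = [O([v_φ])]` (dictionary, from helper67's `PointDictR67`);
* `prod_ptClassR_eq` : the product of point classes of points of the overlap;
* `fibR`             : the deliverable.
-/
import Mathlib
import Fermat.Agent.FFJ.Pic.SpecD35
import Fermat.Agent.FFJ.Pic.KBricksR87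
import Fermat.Agent.FFJ.Val.FibreR1
import Fermat.Agent.FFJ.Val.PointDictR67
import Fermat.Agent.FFJ.Core.DegFamilyR65
import Fermat.Agent.JAC.Fibre.DiagPrin38
import Fermat.Agent.FFJ.Fib.AbsFib6
import Fermat.Agent.FFJ.Fib.GoodRank6

set_option autoImplicit false
set_option linter.unusedSectionVars false
set_option linter.style.haveILetI false
set_option maxHeartbeats 400000

open AlgebraicCurve IsDedekindDomain Polynomial TensorProduct

namespace Fermat.Agent.FFJ.Fib.FibR6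

open scoped Fermat.Agent.JAC.Core.ConstFamily36
open Fermat.Agent.JAC.Core.ConstFamily36 Fermat.Agent.JAC.Core.Defs36
  Fermat.Agent.JAC.Grp.Diag33
  Fermat.Agent.JAC.Fibre.Lat38 Fermat.Agent.JAC.Fibre.Core38 Fermat.Agent.JAC.Fibre.Chart38
  Fermat.Agent.JAC.Fibre.Setting38 Fermat.Agent.JAC.Fibre.DiagOfDiv38
  Fermat.Agent.JAC.Fibre.DiagOps38 Fermat.Agent.JAC.Fibre.RatPlaces67
  Fermat.Agent.JAC.Cover.GraphIdeal98 Fermat.Agent.JAC.Hilb.ZeroIdeal46
  Fermat.Agent.FFJ.Core.ClR35 Fermat.Agent.FFJ.Pic.ChartDefR35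
  Fermat.Agent.FFJ.Val.FibreR1 Fermat.Agent.FFJ.Val.PointDiagR67 Fermat.Agent.FFJ.Val.PointDictR67
  Fermat.Agent.FFJ.Fib.AbsFib6 Fermat.Agent.FFJ.Fib.GoodRank6

universe u

variable {k : Type u} [CommRing k] {A0 A1 A01 : Type u} [CommRing A0] [CommRing A1] [CommRing A01]
  [Algebra k A0] [Algebra k A1] [Algebra k A01] [Algebra A0 A01] [Algebra A1 A01]
  [IsScalarTower k A0 A01] [IsScalarTower k A1 A01] {t : A0} {s : A1}
  [IsLocalization.Away t A01] [IsLocalization.Away s A01]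

/-! ### The two graph ideals agree -/

section Graph

variable {A : Type u} [CommRing A] [Algebra k A] {B : Type u} [CommRing B] [Algebra k B]

theorem evalHom_eq_graphMap (q : A →ₐ[k] B) : Fermat.Agent.FFJ.Pic.SpecD35.evalHom q = graphMap q := by
  apply Algebra.TensorProduct.ext'
  intro b a
  rw [Fermat.Agent.FFJ.Pic.SpecD35.evalHom_tmul, graphMap_tmul]

theorem graphIdeal_eq (q : A →ₐ[k] B) :
    Fermat.Agent.FFJ.Pic.SpecD35.graphIdeal q = Fermat.Agent.JAC.Cover.GraphIdeal98.graphIdeal q := by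
  unfold Fermat.Agent.FFJ.Pic.SpecD35.graphIdeal Fermat.Agent.JAC.Cover.GraphIdeal98.graphIdeal
  rw [evalHom_eq_graphMap]

end Graph

/-! ### `ChartHypR` from `CurveHypR` -/

theorem chartHypR₀ (H : CurveHypR k A0 A1 A01 t s) : ChartHypR k A0 := by
  obtain ⟨n0, b0, hb0⟩ := H.coords0
  have := H.finiteType0
  refine ⟨H.finiteType0, Fermat.Agent.FFJ.Pic.KBricksR87.free_of_coords t b0 hb0, H.dedekind0,
    fun K _ _ => ?_⟩
  have := H.dedekind0 K
  exact Fermat.Agent.FFJ.Pic.KBricksR87.not_isField_fibre t b0 hb0 K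

/-! ### The dictionary for the point classes -/

section Dict

variable (K : Type u) [Field K] [Algebra k K]
  [IsDedekindDomain (K ⊗[k] A0)] [IsDedekindDomain (K ⊗[k] A1)] [IsDedekindDomain (K ⊗[k] A01)]
  {F : Type u} [Field F] [Algebra K F]
  [Algebra (K ⊗[k] A0) F] [IsFractionRing (K ⊗[k] A0) F] [IsScalarTower K (K ⊗[k] A0) F]
  [Algebra (K ⊗[k] A1) F] [IsFractionRing (K ⊗[k] A1) F] [IsScalarTower K (K ⊗[k] A1) F]
  [Algebra (K ⊗[k] A01) F] [IsFractionRing (K ⊗[k] A01) F] [IsScalarTower K (K ⊗[k] A01) F]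
  [IsScalarTower (K ⊗[k] A0) (K ⊗[k] A01) F] [IsScalarTower (K ⊗[k] A1) (K ⊗[k] A01) F]
  (hc0 : ChartHypR k A0)
  (hts : algebraMap A0 A01 t * algebraMap A1 A01 s = 1)
  (S : IsSetting K F ((1 : K) ⊗ₜ[k] t) ((1 : K) ⊗ₜ[k] s) (K ⊗[k] A01))

include hc0 in
/-- **Dictionary**: the point class `[O(φ)]` of `SpecD35` is the class of the divisor `[v_φ]`. -/
theorem ptClassR_eq (hB0 : ¬ IsField (K ⊗[k] A0)) (φ : A0 →ₐ[k] K) :
    (Fermat.Agent.FFJ.Pic.SpecD35.ptClassR hts φ : ClR k A0 A1 A01 t s K) =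
      cls (lineDiagOfDiv S (Finsupp.single (placeOfAlgHom F hB0 (graphMap φ)) (1 : ℤ))) := by
  have hi := invertible_graphIdealR hc0 φ
  have hf : Module.Finite K ((K ⊗[k] A0) ⧸ Fermat.Agent.JAC.Cover.GraphIdeal98.graphIdeal φ) :=
    inferInstance
  unfold Fermat.Agent.FFJ.Pic.SpecD35.ptClassR
  rw [graphIdeal_eq, odClass_eq hts K _ hf hi]
  have h1 : cls (OD hts K (Fermat.Agent.JAC.Cover.GraphIdeal98.graphIdeal φ) hf hi) =
      (cls (pointDiag0R t s hc0 hts φ))⁻¹ := rfl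
  rw [h1, cls_pointDiag0R_eq t s K hc0 hts S hB0 φ, cls_lineDiagOfDiv_neg, inv_inv]

/-- The place of a point of the overlap, seen in the chart `0`. -/
theorem placeOfAlgHom_graphMap_comp (hB0 : ¬ IsField (K ⊗[k] A0)) (hB01 : ¬ IsField (K ⊗[k] A01))
    (q : A01 →ₐ[k] K) :
    placeOfAlgHom F hB0 (graphMap (q.comp (IsScalarTower.toAlgHom k A0 A01))) =
      placeOfAlgHom F hB01 (graphMap q) := by
  rw [placeOfAlgHom_comp hB0 hB01 (graphMap q)]
  congr 1
  apply Algebra.TensorProduct.ext'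
  intro b a
  rw [graphMap_tmul, AlgHom.comp_apply]
  change b * q (algebraMap A0 A01 a) = graphMap q (algebraMap (K ⊗[k] A0) (K ⊗[k] A01) (b ⊗ₜ a))
  rw [algebraMap_tensor_tmul, graphMap_tmul]

include hc0 in
/-- The product of the point classes of a list of points of the overlap. -/
theorem prod_ptClassR_eq (hB0 : ¬ IsField (K ⊗[k] A0)) (hB01 : ¬ IsField (K ⊗[k] A01))
    (l : List (A01 →ₐ[k] K)) :
    ((l.map fun q => (Fermat.Agent.FFJ.Pic.SpecD35.ptClassR hts (q.comp (IsScalarTower.toAlgHom k A0 A01)) :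
        ClR k A0 A1 A01 t s K)).prod) =
      cls (lineDiagOfDiv S (ptsDiv (F := F) hB01 (l.map graphMap))) := by
  induction l with
  | nil =>
    simp only [List.map_nil, List.prod_nil, ptsDiv_nil]
    exact (cls_lineDiagOfDiv_zero S).symm
  | cons q l ih =>
    rw [List.map_cons, List.prod_cons, ih, List.map_cons, ptsDiv_cons,
      ← cls_mul_lineDiagOfDiv, ptClassR_eq K hc0 hts S hB0,
      placeOfAlgHom_graphMap_comp K hB0 hB01 q]

end Dict

/-! ### `h⁰(O) = 1` -/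

section HZero

variable {K F : Type*} [Field K] [Field F] [Algebra K F]

/-- `h⁰(O) = 1` on a two-chart curve with a place of degree one. -/
theorem h0_zero_eq_one {U0 U1 : Set (Place K F)}
    (H : Fermat.Agent.JAC.Fibre.Vanish67.TwoChartHyp U0 U1) {v : Place K F} (hv : v.deg = 1) :
    Fermat.Agent.JAC.Fibre.Vanish67.h0 U0 U1 0 = 1 := by
  have hle := Fermat.Agent.FFJ.Fib.SimulPlaces6.h0_le_one_of_degree_eq_zero H
    (D := 0) (map_zero _) hv
  have hone : (1 : F) ∈ Fermat.Agent.JAC.Fibre.Vanish67.H0 U0 U1 0 := by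
    constructor <;>
    · intro w _
      simp
  have := H.fin0 0
  have hpos : 0 < Module.finrank K (Fermat.Agent.JAC.Fibre.Vanish67.H0 U0 U1 0) :=
    Module.finrank_pos_iff_exists_ne_zero.mpr
      ⟨⟨1, hone⟩, fun h0 => one_ne_zero (congrArg Subtype.val h0)⟩
  unfold Fermat.Agent.JAC.Fibre.Vanish67.h0 at hle ⊢
  omega

end HZero

/-! ### The deliverable -/

/-- **(D2) FIB-R.** -/
theorem fibR (H : CurveHypR k A0 A1 A01 t s) : Fermat.Agent.FFJ.Pic.SpecD35.FibStatement k A0 A1 A01 t s H.hts := by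
  intro K _ _ _ ι _ ξ hξ Sset hS
  classical
  haveI := H.dedekind0 K
  haveI := H.dedekind1 K
  haveI := H.dedekind01 K
  haveI : IsFractionRing (K ⊗[k] A0) (FFR k A01 K) := isFractionRing₀ t K
  haveI : IsFractionRing (K ⊗[k] A1) (FFR k A01 K) := isFractionRing₁ s K
  obtain ⟨n0, b0, hb0⟩ := H.coords0
  obtain ⟨n1, b1, hb1⟩ := H.coords1
  have S := isSettingR t s K H.hts hb0 hb1
  obtain ⟨T, m₀, hm₀⟩ := exists_twoChart t s K H.hts hb0 hb1
  have hvan : ∃ E : Divisor K (FFR k A01 K),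
      h1n (chartSet (K := K) (F := FFR k A01 K) (K ⊗[k] A0))
        (chartSet (K := K) (F := FFR k A01 K) (K ⊗[k] A1)) E = 0 := ⟨_, hm₀ m₀ le_rfl⟩
  have hc0 : ChartHypR k A0 := chartHypR₀ H
  have hB0 : ¬ IsField (K ⊗[k] A0) := hc0.not_isField K
  -- the overlap is not a field
  obtain ⟨_, q₀, -, -⟩ := hS.nonempty
  have hB01 : ¬ IsField (K ⊗[k] A01) := by
    intro hF
    have hinj01 : Function.Injective (algebraMap (K ⊗[k] A0) (K ⊗[k] A01)) := by
      have h := IsFractionRing.injective (K ⊗[k] A0) (FFR k A01 K)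
      rw [IsScalarTower.algebraMap_eq (K ⊗[k] A0) (K ⊗[k] A01) (FFR k A01 K), RingHom.coe_comp] at h
      exact Function.Injective.of_comp h
    have hinjΦ : Function.Injective (graphMap q₀ : K ⊗[k] A01 →ₐ[K] K) := by
      letI := hF.toField
      exact (graphMap q₀ : K ⊗[k] A01 →+* K).injective
    apply ker_ne_bot hB0 ((graphMap q₀).comp (IsScalarTower.toAlgHom K (K ⊗[k] A0) (K ⊗[k] A01)))
    rw [← RingHom.injective_iff_ker_eq_bot]
    exact hinjΦ.comp hinj01
  -- divisors representing the classes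
  have hsurj := clsOfDiv_surjective S
  let D0 : ι → Divisor K (FFR k A01 K) := fun i =>
    Multiplicative.toAdd (Classical.choose (hsurj (ξ i)))
  have hD0cls : ∀ i, cls (lineDiagOfDiv S (D0 i)) = ξ i := fun i =>
    Classical.choose_spec (hsurj (ξ i))
  have hD0 : ∀ i, Divisor.degree (D0 i) = 0 := by
    intro i
    rw [← Fermat.Agent.JAC.Fibre.DiagPrin38.degClass_cls_lineDiagOfDiv S T (D0 i), hD0cls i]
    exact (Fermat.Agent.FFJ.Core.DegFamilyR65.isDegZeroR_field_iff H.hts b0 hb0 b1 hb1 (ξ i)).mp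
      (hξ i)
  -- the genus
  have HH := Fermat.Agent.JAC.Fibre.Bridge67.twoChartHyp T hvan
  have hh0 : h0n (chartSet (K := K) (F := FFR k A01 K) (K ⊗[k] A0))
      (chartSet (K := K) (F := FFR k A01 K) (K ⊗[k] A1)) 0 = 1 := by
    rw [← Fermat.Agent.JAC.Fibre.Bridge67.h0_eq]
    exact h0_zero_eq_one HH (deg_placeOfAlgHom hB01 (graphMap q₀))
  set g : ℕ := h1n (chartSet (K := K) (F := FFR k A01 K) (K ⊗[k] A0))
      (chartSet (K := K) (F := FFR k A01 K) (K ⊗[k] A1)) 0 with hg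
  have hn : chi (chartSet (K := K) (F := FFR k A01 K) (K ⊗[k] A0))
      (chartSet (K := K) (F := FFR k A01 K) (K ⊗[k] A1)) 0 = 1 - (g : ℤ) := by
    unfold chi
    rw [hh0, hg]
    simp
  -- the supply
  have hS' : ((fun q : A01 →ₐ[k] K => (graphMap q : K ⊗[k] A01 →ₐ[K] K)
      (algebraMap (K ⊗[k] A0) (K ⊗[k] A01) ((1 : K) ⊗ₜ[k] t))) '' Sset).Infinite := by
    have e : (fun q : A01 →ₐ[k] K => (graphMap q : K ⊗[k] A01 →ₐ[K] K)
        (algebraMap (K ⊗[k] A0) (K ⊗[k] A01) ((1 : K) ⊗ₜ[k] t))) =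
        fun q : A01 →ₐ[k] K => q (algebraMap A0 A01 t) := by
      funext q
      rw [algebraMap_tensor_tmul, graphMap_tmul, one_mul]
    rw [e]
    exact hS
  have key := exists_simul_points S T hvan hB01
    (fun q : A01 →ₐ[k] K => (graphMap q : K ⊗[k] A01 →ₐ[K] K)) Sset hS' D0 hD0 g hn
  obtain ⟨l, hnd, hlS, hlen, hgood⟩ := key
  refine ⟨l, g, List.Nodup.of_map _ hnd, hlS, fun i => ?_⟩
  obtain ⟨g1, g0, gI⟩ := hgood i
  obtain ⟨σ0, σ1, hH1, hgen, hfaith, hinf, hrank⟩ :=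
    good_lineDiagOfDiv_rank S T hvan _ g1 g0 gI
  refine ⟨lineDiagOfDiv S (D0 i + ptsDiv hB01 (l.map fun q : A01 →ₐ[k] K =>
    (graphMap q : K ⊗[k] A01 →ₐ[K] K))), σ0, σ1, ?_, hH1, ?_, hinf, ?_⟩
  · rw [← cls_mul_lineDiagOfDiv, hD0cls i, prod_ptClassR_eq K hc0 H.hts S hB0 hB01 l]
  · refine ⟨hgen.1, fun x y hxy => ?_⟩
    obtain ⟨b, hx, hy⟩ := hgen.2 x y hxy
    refine ⟨b, ⟨hx, hy⟩, fun b' hb' => ?_⟩
    have e0 : algebraMap K (K ⊗[k] A0) (b' - b) • σ0 = 0 := by
      rw [map_sub, sub_smul, ← hb'.1, ← hx, sub_self]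
    have e1 : algebraMap K (K ⊗[k] A1) (b' - b) • σ1 = 0 := by
      rw [map_sub, sub_smul, ← hb'.2, ← hy, sub_self]
    exact sub_eq_zero.mp (hfaith (b' - b) e0 e1)
  · have hdeg : Divisor.degree (D0 i + ptsDiv hB01 (l.map fun q : A01 →ₐ[k] K =>
        (graphMap q : K ⊗[k] A01 →ₐ[K] K))) = (g : ℤ) := by
      rw [map_add, hD0 i, degree_ptsDiv, List.length_map, hlen, zero_add]
    rw [hdeg] at hrank
    exact_mod_cast hrank

end Fermat.Agent.FFJ.Fib.FibR6
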