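/-
Programme FFJ (S19), chapter FIB (FIB-R, the rank clause of `SpecD35.GoodAtRank`).  Owner: helper67.

One Dedekind chart `B` of a curve with function field `F` over a field `K` (language of
`JAC/Fibre/Setting38`, `DiagOfDiv38`): for a nonzero section `σ ∈ L_U(D)`, `U = chartSet B`,
* `exists_mem_lat_ord_eq`: sections of exact order at a given place of the chart;
* `mem_zeroIdeal_latMod_iff`: the zero ideal of `σ` in `M = latMod B D` is `L_U(-(D + div σ)) ∩ B`;
* `finrank_quotient_zeroIdeal`: if `σ` has no zero outside the chart (exact order `-D v` at the places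
  `v ∉ U`) then `B ⧸ zeroIdeal σ` is finite over `K` of dimension `deg D`.
-/
import Mathlib
import Fermat.Agent.JAC.Fibre.DiagOfDiv38
import Fermat.Agent.JAC.Fibre.DegInf67
import Fermat.Agent.JAC.Hilb.ZeroIdeal46

set_option autoImplicit false
set_option linter.unusedSectionVars false

open AlgebraicCurve IsDedekindDomain WithZero

namespace Fermat.Agent.FFJ.Fib.ZeroRank67

open Fermat.Agent.JAC.Fibre.RelRank38 Fermat.Agent.JAC.Fibre.Lat38 Fermat.Agent.JAC.Fibre.Core38
  Fermat.Agent.JAC.Fibre.Chart38 Fermat.Agent.JAC.Fibre.Setting38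
  Fermat.Agent.JAC.Fibre.DiagOfDiv38 Fermat.Agent.JAC.Fibre.DegInf67
  Fermat.Agent.JAC.Hilb.ZeroIdeal46 Fermat.Agent.X0.FFDedekind Fermat.Agent.X0.FF

universe u

variable {K : Type u} {F : Type u} [Field K] [Field F] [Algebra K F]
  {B : Type u} [CommRing B] [IsDedekindDomain B] [Algebra B F] [IsFractionRing B F]
  [Algebra K B] [IsScalarTower K B F]

/-- On a Dedekind chart there are sections of `L_U(D)` of exact order `-D v₀` at a given place `v₀`
of the chart. -/
theorem exists_mem_lat_ord_eq (D : Divisor K F) {v₀ : Place K F}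
    (hv₀ : v₀ ∈ chartSet (K := K) (F := F) B) :
    ∃ x : F, x ≠ 0 ∧ x ∈ lat (chartSet (K := K) (F := F) B) D ∧ v₀.ord x = -D v₀ := by
  classical
  have hU : IsChart (chartSet (K := K) (F := F) B) := isChart_chartSet (K := K) (F := F) (B := B)
  have h1 := hU.relrank_add_single (D - Finsupp.single v₀ 1) v₀ hv₀
  rw [sub_add_cancel] at h1
  have hne : relrank (lat (chartSet (K := K) (F := F) B) (D - Finsupp.single v₀ 1))
      (lat (chartSet (K := K) (F := F) B) D) ≠ 0 := by
    rw [h1]
    exact (rank_pos (R := K) (M := v₀.ResidueField)).ne'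
  have hnle : ¬ lat (chartSet (K := K) (F := F) B) D ≤
      lat (chartSet (K := K) (F := F) B) (D - Finsupp.single v₀ 1) := fun h =>
    hne (relrank_eq_zero_iff.mpr h)
  obtain ⟨x, hx, hx'⟩ := SetLike.not_le_iff_exists.mp hnle
  have hx0 : x ≠ 0 := by
    rintro rfl
    exact hx' (Submodule.zero_mem _)
  refine ⟨x, hx0, hx, ?_⟩
  rw [mem_lat_iff_ord] at hx hx'
  have hge := (hx v₀ hv₀).resolve_left hx0
  by_contra hne'
  apply hx'
  intro v hv
  right
  have hv1 := (hx v hv).resolve_left hx0
  by_cases hvv : v = v₀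
  · subst hvv
    rw [Finsupp.sub_apply, Finsupp.single_eq_same]
    omega
  · rw [Finsupp.sub_apply, Finsupp.single_eq_of_ne hvv, sub_zero]
    exact hv1

/-- **The zero ideal of a section of `L_U(D)`**: `b ∈ zeroIdeal σ ↔ b ∈ L_U(-(D + div σ))`. -/
theorem mem_zeroIdeal_latMod_iff (D E : Divisor K F) {σ : F} (hσ0 : σ ≠ 0)
    (hσ : σ ∈ lat (chartSet (K := K) (F := F) B) D)
    (hE : ∀ v ∈ chartSet (K := K) (F := F) B, E v = D v + v.ord σ) (b : B) :
    b ∈ zeroIdeal B (⟨σ, mem_latMod_iff.mpr hσ⟩ : ↥(latMod B D)) ↔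
      algebraMap B F b ∈ lat (chartSet (K := K) (F := F) B) (-E) := by
  set σ' : ↥(latMod B D) := ⟨σ, mem_latMod_iff.mpr hσ⟩ with hσ'
  constructor
  · rintro ⟨l, hl⟩
    rw [mem_lat_iff_ord]
    intro v hv
    by_cases hb0 : algebraMap B F b = 0
    · exact Or.inl hb0
    right
    obtain ⟨x, hx0, hx, hxord⟩ := exists_mem_lat_ord_eq (K := K) (B := B) D hv
    set x' : ↥(latMod B D) := ⟨x, mem_latMod_iff.mpr hx⟩ with hx'
    have hcomm := apply_smul_comm l σ' x'
    have hl' : l σ' = b := hl
    rw [hl'] at hcomm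
    have hF : algebraMap B F b * x = algebraMap B F (l x') * σ := by
      have := congrArg (Subtype.val : ↥(latMod B D) → F) hcomm
      simpa [Algebra.smul_def] using this
    have hlx0 : algebraMap B F (l x') ≠ 0 := by
      intro h0
      rw [h0, zero_mul] at hF
      exact (mul_ne_zero hb0 hx0) hF
    have hord := congrArg v.ord hF
    rw [v.ord_mul hb0 hx0, v.ord_mul hlx0 hσ0, hxord] at hord
    have hnn : 0 ≤ v.ord (algebraMap B F (l x')) := ffp_ord_nonneg_of_mem v (hv (l x'))
    rw [Finsupp.neg_apply, neg_neg, hE v hv]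
    omega
  · intro hb
    -- the linear form `x ↦ b x / σ`
    set g : F := algebraMap B F b / σ with hg
    have hmem : ∀ x : ↥(latMod B D), ∃ c : B, algebraMap B F c = g * (x : F) := by
      intro x
      apply (mem_lat_chartSet_zero_iff (K := K) (F := F) (B := B)).mp
      intro v hv
      rw [Finsupp.zero_apply, exp_zero]
      have h1 := hb v hv
      have h2 := (mem_latMod_iff.mp x.2) v hv
      rw [Finsupp.neg_apply, hE v hv] at h1
      have hpos : (0 : ℤᵐ⁰) < v.adicValuation σ := by
        rw [pos_iff_ne_zero]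
        exact v.adicValuation_ne_zero hσ0
      rw [hg, div_mul_eq_mul_div, map_div₀, div_le_iff₀ hpos, map_mul, one_mul]
      refine (mul_le_mul' h1 h2).trans ?_
      rw [v.adicValuation_eq_exp_neg_ord hσ0, ← exp_add]
      apply le_of_eq
      congr 1
      ring
    let ι : B →ₗ[B] F := Algebra.linearMap B F
    have hι : Function.Injective ι := IsFractionRing.injective B F
    let φ : ↥(latMod B D) →ₗ[B] F := (LinearMap.mulLeft B g).comp (latMod B D).subtype
    have hφ : ∀ x, φ x ∈ LinearMap.range ι := by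
      intro x
      obtain ⟨c, hc⟩ := hmem x
      exact ⟨c, hc⟩
    let l : Module.Dual B ↥(latMod B D) :=
      (LinearEquiv.ofInjective ι hι).symm.toLinearMap.comp (φ.codRestrict (LinearMap.range ι) hφ)
    have hl : ∀ x, algebraMap B F (l x) = g * (x : F) := by
      intro x
      have := (LinearEquiv.ofInjective ι hι).apply_symm_apply
        (φ.codRestrict (LinearMap.range ι) hφ x)
      have h2 := congrArg (Subtype.val : ↥(LinearMap.range ι) → F) this
      exact h2
    refine ⟨l, ?_⟩
    apply IsFractionRing.injective B F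
    show algebraMap B F (l σ') = algebraMap B F b
    rw [hl σ', hg]
    show algebraMap B F b / σ * σ = _
    field_simp

/-- **Rank of the ring of zeros**: if the nonzero section `σ ∈ L_U(D)` has exact order `-D v` at every
place `v` outside the chart `U = chartSet B`, then `B ⧸ zeroIdeal σ` is finite over `K` of dimension
`deg D`. -/
theorem finrank_quotient_zeroIdeal {U₀ U₁ : Set (Place K F)} (T : TwoChart U₀ U₁)
    (D : Divisor K F) {σ : F} (hσ0 : σ ≠ 0)
    (hσ : σ ∈ lat (chartSet (K := K) (F := F) B) D)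
    (hord : ∀ v : Place K F, v ∉ chartSet (K := K) (F := F) B → v.ord σ = -D v) :
    Module.Finite K (B ⧸ zeroIdeal B (⟨σ, mem_latMod_iff.mpr hσ⟩ : ↥(latMod B D))) ∧
      (Module.finrank K (B ⧸ zeroIdeal B (⟨σ, mem_latMod_iff.mpr hσ⟩ : ↥(latMod B D))) : ℤ) =
        Divisor.degree D := by
  classical
  set I : Ideal B := zeroIdeal B (⟨σ, mem_latMod_iff.mpr hσ⟩ : ↥(latMod B D)) with hI
  set E : Divisor K F := D + T.div σ hσ0 with hEdef
  have hEv : ∀ v, E v = D v + v.ord σ := fun v => by
    rw [hEdef, Finsupp.add_apply, T.div_apply]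
  have hsupp : ∀ v, v ∉ chartSet (K := K) (F := F) B → E v = 0 := by
    intro v hv
    rw [hEv, hord v hv]
    ring
  have hE0 : 0 ≤ E := by
    rw [Finsupp.le_def]
    intro v
    by_cases hv : v ∈ chartSet (K := K) (F := F) B
    · have := ((mem_lat_iff_ord.mp hσ) v hv).resolve_left hσ0
      rw [hEv, Finsupp.zero_apply]
      omega
    · rw [hsupp v hv]
      simp
  obtain ⟨d, hd, hrel⟩ := relrank_lat_add_effective T.toPre
    (isChart_chartSet (K := K) (F := F) (B := B)) (-E) hE0 hsupp
  rw [neg_add_cancel] at hrel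
  -- the image of the zero ideal in `F`
  have hmap : (I.restrictScalars K).map (toF K B) = lat (chartSet (K := K) (F := F) B) (-E) := by
    ext f
    constructor
    · rintro ⟨b, hb, rfl⟩
      exact (mem_zeroIdeal_latMod_iff D E hσ0 hσ (fun v _ => hEv v) b).mp hb
    · intro hf
      have hf0 : f ∈ lat (chartSet (K := K) (F := F) B) 0 :=
        lat_mono _ (neg_nonpos.mpr hE0) hf
      obtain ⟨b, rfl⟩ := mem_lat_chartSet_zero_iff.mp hf0
      exact ⟨b, (mem_zeroIdeal_latMod_iff D E hσ0 hσ (fun v _ => hEv v) b).mpr hf, rfl⟩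
  have h := relrank_map_range (K := K) (toF K B) (toF_injective (K := K) (F := F) (B := B))
    (I.restrictScalars K)
  rw [hmap, ← lat_chartSet_zero, hrel] at h
  have hrank : Module.rank K (B ⧸ I) = (d : Cardinal.{u}) := by
    have h' : Module.rank K (B ⧸ I.restrictScalars K) = (d : Cardinal.{u}) := by
      apply Cardinal.lift_injective.{u}
      rw [← h]
    rw [← h']
    exact (Submodule.Quotient.restrictScalarsEquiv K I).rank_eq.symm
  refine ⟨Module.finite_of_rank_eq_nat hrank, ?_⟩
  have hdeg : Divisor.degree E = Divisor.degree D := by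
    rw [hEdef, map_add, T.degree_div, add_zero]
  rw [← hdeg, ← hd, Module.finrank, hrank]
  simp

end Fermat.Agent.FFJ.Fib.ZeroRank67
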