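/-
Programme FFJ (S19), chapter FIB (FIB-R).  Owner: helper67.

DIVISOR DATA ⇒ `GoodAtRank`.  In the common setting of `JAC/Fibre/Setting38` (two Dedekind charts
`B₀`, `B₁` of a curve with function field `F` over ANY field `K`), for a divisor `D'` with
`h¹(D') = 0`, `h⁰(D') = 1` and `h⁰(D' - v) = 0` at every place `v` outside the chart `U₀`:
* `good_lineDiagOfDiv_rank` (abstract): `O(D')` has `H¹ = 0`, a generating faithful section without zero
  at infinity, and the ring of zeros of the section on `U₀` has `K`-dimension `deg D'`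
  (generalisation of `Fibre/CovWire67.good_lineDiagOfDiv` to an arbitrary setting, plus the rank);
* `goodAtRank_cls_lineDiagOfDiv` (constant family `B_i = K ⊗[k] A_i` over a BASE RING `k`, `F` any model
  of the function field): `SpecD35.GoodAtRank K (cls (lineDiagOfDiv S D')) n` for `n = deg D'`.
-/
import Mathlib
import Fermat.Agent.JAC.Fibre.GoodDiv67
import Fermat.Agent.JAC.Hilb.GenSection46
import Fermat.Agent.FFJ.Fib.ZeroRank67
import Fermat.Agent.FFJ.Pic.SpecD35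

set_option autoImplicit false
set_option linter.unusedSectionVars false

open AlgebraicCurve IsDedekindDomain WithZero Polynomial TensorProduct

namespace Fermat.Agent.FFJ.Fib.GoodRank67

open Fermat.Agent.JAC.Fibre.Lat38 Fermat.Agent.JAC.Fibre.Core38 Fermat.Agent.JAC.Fibre.Chart38
  Fermat.Agent.JAC.Fibre.Setting38 Fermat.Agent.JAC.Fibre.DiagOfDiv38
  Fermat.Agent.JAC.Fibre.GoodDiv67 Fermat.Agent.JAC.Hilb.ZeroIdeal46
  Fermat.Agent.JAC.Core.Defs36 Fermat.Agent.JAC.Grp.Diag33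
  Fermat.Agent.FFJ.Fib.ZeroRank67

universe u

/-! ### The abstract setting -/

section Abstract

variable {K : Type u} {F : Type u} [Field K] [Field F] [Algebra K F]
  {B₀ : Type u} [CommRing B₀] [IsDedekindDomain B₀] [Algebra B₀ F] [IsFractionRing B₀ F]
  [Algebra K B₀] [IsScalarTower K B₀ F]
  {B₁ : Type u} [CommRing B₁] [IsDedekindDomain B₁] [Algebra B₁ F] [IsFractionRing B₁ F]
  [Algebra K B₁] [IsScalarTower K B₁ F]
  {B₀₁ : Type u} [CommRing B₀₁] [IsDedekindDomain B₀₁] [Algebra B₀₁ F] [IsFractionRing B₀₁ F]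
  [Algebra K B₀₁] [IsScalarTower K B₀₁ F]
  [Algebra B₀ B₀₁] [Algebra B₁ B₀₁] [IsScalarTower B₀ B₀₁ F] [IsScalarTower B₁ B₀₁ F]
  {t : B₀} {s : B₁}

/-- **The `GoodAt` conditions and the rank for `O(D')` from the divisor conditions.** -/
theorem good_lineDiagOfDiv_rank (S : IsSetting K F t s B₀₁)
    (T : TwoChart (chartSet (K := K) (F := F) B₀) (chartSet (K := K) (F := F) B₁))
    (hvan : ∃ E : Divisor K F,
      h1n (chartSet (K := K) (F := F) B₀) (chartSet (K := K) (F := F) B₁) E = 0)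
    (D' : Divisor K F)
    (h1 : h1n (chartSet (K := K) (F := F) B₀) (chartSet (K := K) (F := F) B₁) D' = 0)
    (h0 : h0n (chartSet (K := K) (F := F) B₀) (chartSet (K := K) (F := F) B₁) D' = 1)
    (hI : ∀ v : Place K F, v ∉ chartSet (K := K) (F := F) B₀ →
      h0n (chartSet (K := K) (F := F) B₀) (chartSet (K := K) (F := F) B₁)
        (D' - Finsupp.single v 1) = 0) :
    ∃ (σ0 : (lineDiagOfDiv S D').M0) (σ1 : (lineDiagOfDiv S D').M1),
      (∀ z : (lineDiagOfDiv S D').M01, ∃ (x : (lineDiagOfDiv S D').M0)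
        (y : (lineDiagOfDiv S D').M1),
        (lineDiagOfDiv S D').rho0 x - (lineDiagOfDiv S D').rho1 y = z) ∧
      Fermat.Agent.JAC.Hilb.GenSection46.Generates K (lineDiagOfDiv S D') σ0 σ1 ∧
      Fermat.Agent.JAC.Hilb.GenSection46.IsFaithfulSection K (lineDiagOfDiv S D') σ0 σ1 ∧
      Submodule.span B₁ {σ1} ⊔
        Ideal.span {s} • (⊤ : Submodule B₁ (lineDiagOfDiv S D').M1) = ⊤ ∧
      Module.Finite K (B₀ ⧸ zeroIdeal B₀ σ0) ∧
      (Module.finrank K (B₀ ⧸ zeroIdeal B₀ σ0) : ℤ) = Divisor.degree D' := by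
  obtain ⟨σ, hσ0, hσU0, hσU1, huniq⟩ := exists_generator_of_h0n_eq_one (B₀ := B₀) (B₁ := B₁) D' h0
  have hord : ∀ v : Place K F, v ∉ chartSet (K := K) (F := F) B₀ → v.ord σ = -D' v := fun v hv =>
    ord_eq_neg_of_h0n_sub_single_eq_zero T hvan (hI v hv) hσ0 hσU0 hσU1
  obtain ⟨hfin, hrank⟩ := finrank_quotient_zeroIdeal (B := B₀) T D' hσ0 hσU0 hord
  refine ⟨(⟨σ, mem_latMod_iff.mpr hσU0⟩ : ↥(latMod B₀ D')),
    (⟨σ, mem_latMod_iff.mpr hσU1⟩ : ↥(latMod B₁ D')),
    h1Zero_of_h1n_eq_zero S T D' h1, ⟨?_, ?_⟩, ?_,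
    span_sup_idealSpan_smul_eq_top S D' hσ0 hσU1 hord, hfin, hrank⟩
  · exact Subtype.ext rfl
  · intro x y hxy
    obtain ⟨x, hx⟩ : ↥(latMod B₀ D') := x
    obtain ⟨y, hy⟩ : ↥(latMod B₁ D') := y
    have hxy' : x = y := congrArg Subtype.val hxy
    obtain ⟨c, hc, -⟩ := huniq x (mem_latMod_iff.mp hx) (hxy' ▸ mem_latMod_iff.mp hy)
    refine ⟨c, ?_, ?_⟩
    · apply Subtype.ext
      change x = algebraMap K B₀ c • σ
      rw [Algebra.smul_def, ← IsScalarTower.algebraMap_apply K B₀ F]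
      exact hc
    · apply Subtype.ext
      change y = algebraMap K B₁ c • σ
      rw [Algebra.smul_def, ← IsScalarTower.algebraMap_apply K B₁ F, ← hxy']
      exact hc
  · intro c hc _
    have h := congrArg Subtype.val hc
    change algebraMap K B₀ c • σ = 0 at h
    rw [Algebra.smul_def, ← IsScalarTower.algebraMap_apply K B₀ F] at h
    rcases mul_eq_zero.mp h with h | h
    · exact (map_eq_zero_iff _ (algebraMap K F).injective).mp h
    · exact absurd h hσ0

end Abstract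

/-! ### The constant family over a base ring -/

section Const

open scoped Fermat.Agent.JAC.Core.ConstFamily36
open Fermat.Agent.FFJ.Core.ClR35 Fermat.Agent.FFJ.Pic.ChartDefR35 Fermat.Agent.FFJ.Pic.SpecD35

variable {k : Type u} [CommRing k] {A0 A1 A01 : Type u} [CommRing A0] [CommRing A1] [CommRing A01]
  [Algebra k A0] [Algebra k A1] [Algebra k A01] [Algebra A0 A01] [Algebra A1 A01]
  [IsScalarTower k A0 A01] [IsScalarTower k A1 A01] {t : A0} {s : A1}
  [IsLocalization.Away t A01] [IsLocalization.Away s A01]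
  (K : Type u) [Field K] [Algebra k K]
  [IsDedekindDomain (K ⊗[k] A0)] [IsDedekindDomain (K ⊗[k] A1)] [IsDedekindDomain (K ⊗[k] A01)]
  {F : Type u} [Field F] [Algebra K F]
  [Algebra (K ⊗[k] A0) F] [IsFractionRing (K ⊗[k] A0) F] [IsScalarTower K (K ⊗[k] A0) F]
  [Algebra (K ⊗[k] A1) F] [IsFractionRing (K ⊗[k] A1) F] [IsScalarTower K (K ⊗[k] A1) F]
  [Algebra (K ⊗[k] A01) F] [IsFractionRing (K ⊗[k] A01) F] [IsScalarTower K (K ⊗[k] A01) F]
  [IsScalarTower (K ⊗[k] A0) (K ⊗[k] A01) F] [IsScalarTower (K ⊗[k] A1) (K ⊗[k] A01) F]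

/-- A generating faithful section is a generating section in the sense of `ChartDefR35`. -/
theorem isGenSection_of_generates {B : Type u} [CommRing B] [Algebra k B]
    (N : LineDiag ((1 : B) ⊗ₜ[k] t) ((1 : B) ⊗ₜ[k] s) (B ⊗[k] A01)) (σ0 : N.M0) (σ1 : N.M1)
    (hgen : Fermat.Agent.JAC.Hilb.GenSection46.Generates B N σ0 σ1)
    (hfaith : Fermat.Agent.JAC.Hilb.GenSection46.IsFaithfulSection B N σ0 σ1) :
    IsGenSection N σ0 σ1 := by
  refine ⟨hgen.1, fun x y hxy => ?_⟩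
  obtain ⟨b, hx, hy⟩ := hgen.2 x y hxy
  refine ⟨b, ⟨hx, hy⟩, fun b' hb' => ?_⟩
  have h0 : algebraMap B (B ⊗[k] A0) (b' - b) • σ0 = 0 := by
    rw [map_sub, sub_smul, ← hb'.1, ← hx, sub_self]
  have h1 : algebraMap B (B ⊗[k] A1) (b' - b) • σ1 = 0 := by
    rw [map_sub, sub_smul, ← hb'.2, ← hy, sub_self]
  exact sub_eq_zero.mp (hfaith (b' - b) h0 h1)

/-- **Divisor data ⇒ `GoodAtRank`** for the fibre over a field `K` of CURVE data over a base ring. -/
theorem goodAtRank_cls_lineDiagOfDiv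
    (S : IsSetting K F ((1 : K) ⊗ₜ[k] t) ((1 : K) ⊗ₜ[k] s) (K ⊗[k] A01))
    (T : TwoChart (chartSet (K := K) (F := F) (K ⊗[k] A0))
      (chartSet (K := K) (F := F) (K ⊗[k] A1)))
    (hvan : ∃ E : Divisor K F, h1n (chartSet (K := K) (F := F) (K ⊗[k] A0))
      (chartSet (K := K) (F := F) (K ⊗[k] A1)) E = 0)
    (D' : Divisor K F)
    (h1 : h1n (chartSet (K := K) (F := F) (K ⊗[k] A0))
      (chartSet (K := K) (F := F) (K ⊗[k] A1)) D' = 0)
    (h0 : h0n (chartSet (K := K) (F := F) (K ⊗[k] A0))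
      (chartSet (K := K) (F := F) (K ⊗[k] A1)) D' = 1)
    (hI : ∀ v : Place K F, v ∉ chartSet (K := K) (F := F) (K ⊗[k] A0) →
      h0n (chartSet (K := K) (F := F) (K ⊗[k] A0)) (chartSet (K := K) (F := F) (K ⊗[k] A1))
        (D' - Finsupp.single v 1) = 0)
    (n : ℕ) (hn : Divisor.degree D' = n) :
    GoodAtRank K (cls (lineDiagOfDiv S D') : ClR k A0 A1 A01 t s K) n := by
  obtain ⟨σ0, σ1, hH1, hgen, hfaith, hinf, -, hrank⟩ :=
    good_lineDiagOfDiv_rank S T hvan D' h1 h0 hI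
  refine ⟨lineDiagOfDiv S D', σ0, σ1, rfl, hH1,
    isGenSection_of_generates (lineDiagOfDiv S D') σ0 σ1 hgen hfaith, hinf, ?_⟩
  rw [hn] at hrank
  exact_mod_cast hrank

end Const

end Fermat.Agent.FFJ.Fib.GoodRank67
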