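/-
Programme FFJ (S19), brick FIB (helper6), part (F3a): the simultaneous covering theorem for the
constant extension `C_K` of a curve `C` over an algebraically closed field `k`, with `k`-RATIONAL
twisting points (place language; the simultaneous version of
`JAC/Fibre/RatPlaces67.exists_translate_ratPlaces` of helper67).

`(A0 → A01 ← A1; t, s)` the CURVE data over `k`, `K` any field over `k`, `F` the function field of
`C_K` with its Dedekind charts `K ⊗ A0`, `K ⊗ A1`.  For finitely many divisors `D0 i` of degree `0`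
of `F / K`, a finite set `C ⊆ k` of forbidden `t`-coordinates and a finite set `Z` of `k`-points of
`A0`, there are `n` (= genus) DISTINCT `k`-points `q_1, …, q_n` of the overlap `A01` with
`t(q_j) ∉ C` such that for ALL `i` the divisor `D' = D0 i + Σ q_j` has `h¹ = 0`, `h⁰ = 1` and its
section vanishes neither at infinity nor at the points of `Z`.
-/
import Mathlib
import Fermat.Agent.JAC.Fibre.RatPlaces67
import Fermat.Agent.FFJ.Fib.SimulPlaces6

set_option autoImplicit false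
set_option linter.unusedSectionVars false

open AlgebraicCurve IsDedekindDomain IsLocalRing

namespace Fermat.Agent.FFJ.Fib.SimulRat6

universe u

open scoped TensorProduct
open scoped Fermat.Agent.JAC.Core.ConstFamily36
open Fermat.Agent.JAC.Core.ConstFamily36 Fermat.Agent.JAC.Fibre.Vanish67
  Fermat.Agent.JAC.Fibre.CurveLikeSub67 Fermat.Agent.JAC.Cover.AbsCover98
  Fermat.Agent.JAC.Fibre.RatPlaces67 Fermat.Agent.FFJ.Fib.SimulPlaces6 Polynomial WithZero
  Fermat.Agent.X0.FFDedekind Fermat.Agent.JAC.Fibre.Chart38 Fermat.Agent.JAC.Fibre.Setting38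

variable {k K : Type u} [Field k] [Field K] [Algebra k K]
  {A0 A1 A01 : Type u} [CommRing A0] [CommRing A1] [CommRing A01] [Algebra k A0]
  [Algebra k A1] [Algebra k A01] [Algebra A0 A01] [Algebra A1 A01] [IsScalarTower k A0 A01]
  [IsScalarTower k A1 A01]
  {F : Type*} [Field F] [Algebra K F]
  [IsDedekindDomain (K ⊗[k] A0)] [Algebra (K ⊗[k] A0) F] [IsFractionRing (K ⊗[k] A0) F]
  [IsScalarTower K (K ⊗[k] A0) F]
  [IsDedekindDomain (K ⊗[k] A1)] [Algebra (K ⊗[k] A1) F] [IsFractionRing (K ⊗[k] A1) F]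
  [IsScalarTower K (K ⊗[k] A1) F]
  [IsDedekindDomain (K ⊗[k] A01)] [Algebra (K ⊗[k] A01) F] [IsFractionRing (K ⊗[k] A01) F]
  [IsScalarTower K (K ⊗[k] A01) F]
  [IsScalarTower (K ⊗[k] A0) (K ⊗[k] A01) F]

/-- **Simultaneous covering theorem with rational twisting points**, in the language of
`Vanish67`. -/
theorem exists_simul_translate_ratPlaces [IsAlgClosed k]
    (hB0 : ¬ IsField (K ⊗[k] A0)) (hB1 : ¬ IsField (K ⊗[k] A1)) (hB01 : ¬ IsField (K ⊗[k] A01))
    (t : A0) (s : A1) [IsLocalization.Away t A01]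
    (hts : algebraMap (K ⊗[k] A0) F ((1 : K) ⊗ₜ[k] t) *
      algebraMap (K ⊗[k] A1) F ((1 : K) ⊗ₜ[k] s) = 1)
    (hint₀ : (aeval ((1 : K) ⊗ₜ[k] t) : K[X] →ₐ[K] K ⊗[k] A0).toRingHom.IsIntegral)
    (htr : Transcendental K (algebraMap (K ⊗[k] A0) F ((1 : K) ⊗ₜ[k] t)))
    (hfin0 : ∀ c : k, Module.Finite k (A0 ⧸ Ideal.span {t - algebraMap k A0 c}))
    (hfin1 : Module.Finite k (A1 ⧸ Ideal.span {s}))
    (H : TwoChartHyp (chartSet (K := K) (F := F) (K ⊗[k] A0))
      (chartSet (K := K) (F := F) (K ⊗[k] A1)))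
    (hres : ∀ v : Place K F, Module.Finite K v.ResidueField)
    {ι : Type*} [Finite ι] (D0 : ι → Divisor K F) (hD0 : ∀ i, Divisor.degree (D0 i) = 0)
    (n : ℕ) (hn : chi (chartSet (K := K) (F := F) (K ⊗[k] A0))
      (chartSet (K := K) (F := F) (K ⊗[k] A1)) 0 = 1 - n)
    (C : Set k) (hC : C.Finite) (Z : Set (A0 →ₐ[k] k)) (hZ : Z.Finite) :
    ∃ l : List (A01 →ₐ[k] k), l.Nodup ∧ l.length = n ∧
      (∀ φ ∈ l, φ (algebraMap A0 A01 t) ∉ C) ∧
      ∀ i,
        h1 (chartSet (K := K) (F := F) (K ⊗[k] A0)) (chartSet (K := K) (F := F) (K ⊗[k] A1))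
          (D0 i + divOfPoints hB01 l) = 0 ∧
        h0 (chartSet (K := K) (F := F) (K ⊗[k] A0)) (chartSet (K := K) (F := F) (K ⊗[k] A1))
          (D0 i + divOfPoints hB01 l) = 1 ∧
        (∀ v : Place K F, v ∉ chartSet (K := K) (F := F) (K ⊗[k] A0) →
          h0 (chartSet (K := K) (F := F) (K ⊗[k] A0)) (chartSet (K := K) (F := F) (K ⊗[k] A1))
            (D0 i + divOfPoints hB01 l - Finsupp.single v 1) = 0) ∧
        ∀ z ∈ Z,
          h0 (chartSet (K := K) (F := F) (K ⊗[k] A0)) (chartSet (K := K) (F := F) (K ⊗[k] A1))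
            (D0 i + divOfPoints hB01 l - Finsupp.single (ratPlace F hB0 z) 1) = 0 := by
  classical
  set U0 := chartSet (K := K) (F := F) (K ⊗[k] A0) with hU0
  set U1 := chartSet (K := K) (F := F) (K ⊗[k] A1) with hU1
  set τ := algebraMap (K ⊗[k] A0) F ((1 : K) ⊗ₜ[k] t) with hτ
  set σ := algebraMap (K ⊗[k] A1) F ((1 : K) ⊗ₜ[k] s) with hσ
  have hτ0 : τ ≠ 0 := left_ne_zero_of_mul_eq_one hts
  have hσinv : σ = τ⁻¹ := eq_inv_of_mul_eq_one_right hts
  have hdegpos : ∀ v : Place K F, 0 < v.deg := fun v => by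
    have := hres v
    unfold Place.deg
    exact Module.finrank_pos
  -- a place outside `U0` is a pole of `τ`
  have hpole : ∀ v : Place K F, v ∉ U0 → v.ord τ < 0 := by
    intro v hv
    have hτv : τ ∉ v.toValuationSubring := fun h => hv (mem_chartSet_of_mem _ hint₀ v h)
    have h1 : ¬ v.adicValuation τ ≤ 1 := fun h => hτv ((mem_iff_adicValuation_le_one v).mpr h)
    rw [v.adicValuation_eq_exp_neg_ord hτ0, ← exp_zero, exp_le_exp] at h1
    omega
  -- points at infinity are rational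
  have hInfRat : ∀ v : Place K F, v ∉ U0 →
      ∃ φ : A1 →ₐ[k] k, φ s = 0 ∧ v = ratPlace F hB1 φ := by
    intro v hv
    have hv1 : v ∈ U1 := by
      have : v ∈ U0 ∪ U1 := by rw [H.cover]; trivial
      exact this.resolve_left hv
    have hpos : 0 < v.ord σ := by
      have := hpole v hv
      rw [hσinv, Place.ord_inv]
      omega
    exact exists_ratPlace_eq hB1 s hfin1 v hv1 hpos
  -- the index type: places of degree one
  let Pt := {v : Place K F // v.deg = 1}
  let p : Pt → Place K F := Subtype.val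
  have hp : Function.Injective p := Subtype.val_injective
  have hdeg : ∀ P : Pt, (p P).deg = 1 := fun P => P.2
  let S : Set Pt := {P | ∃ φ : A01 →ₐ[k] k, P.1 = ratPlace F hB01 φ ∧
    φ (algebraMap A0 A01 t) ∉ C}
  let Inf : Set Pt := {P | P.1 ∉ U0} ∪ {P | ∃ z ∈ Z, P.1 = ratPlace F hB0 z}
  have hInf : Inf.Finite := by
    refine Set.Finite.union ?_ ?_
    · have h := Fermat.Agent.JAC.Fibre.Points67.finite_setOf_ord_neg H hτ0
      refine (h.preimage hp.injOn).subset ?_
      intro P hP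
      exact hpole P.1 hP
    · have h : ((fun z => ratPlace (k := k) (K := K) (A := A0) F hB0 z) '' Z).Finite :=
        hZ.image _
      refine (h.preimage hp.injOn).subset ?_
      rintro P ⟨z, hz, hPz⟩
      exact ⟨z, hz, hPz.symm⟩
  have hS : S.Infinite := by
    have hC0 : ((Set.range (algebraMap k K)) \ (algebraMap k K '' C)).Infinite :=
      (Set.infinite_range_of_injective (algebraMap k K).injective).sdiff (hC.image _)
    have hV := Fermat.Agent.JAC.Fibre.Points67.infinite_setOf_overlap H hdegpos htr hC0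
    intro hSfin
    apply hV
    refine (hSfin.image p).subset ?_
    rintro v ⟨hv0, c, ⟨⟨c0, rfl⟩, hcC⟩, hc, hv⟩
    have hvU0 : v ∈ U0 := by
      refine mem_chartSet_of_mem _ hint₀ v ((mem_iff_adicValuation_le_one v).mpr ?_)
      rw [v.adicValuation_eq_exp_neg_ord hτ0, hv0, neg_zero, exp_zero]
    have hc0 : c0 ≠ 0 := by
      rintro rfl
      exact hc (map_zero _)
    have hc0C : c0 ∉ C := fun h => hcC ⟨c0, h, rfl⟩
    have e : algebraMap (K ⊗[k] A0) F ((1 : K) ⊗ₜ[k] (t - algebraMap k A0 c0)) =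
        τ - algebraMap K F (algebraMap k K c0) := by
      rw [TensorProduct.tmul_sub, map_sub, hτ]
      congr 1
      rw [IsScalarTower.algebraMap_apply K (K ⊗[k] A0) F,
        Algebra.TensorProduct.algebraMap_apply, Algebra.algebraMap_self, RingHom.id_apply,
        Algebra.algebraMap_eq_smul_one (A := A0), Algebra.algebraMap_eq_smul_one (A := K),
        TensorProduct.smul_tmul]
    obtain ⟨φ0, hφ0, hvφ0⟩ := exists_ratPlace_eq hB0 (t - algebraMap k A0 c0) (hfin0 c0) v hvU0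
      (by rw [e]; exact hv)
    have hφ0t : φ0 t = c0 := by
      rw [map_sub, sub_eq_zero, AlgHom.commutes] at hφ0
      simpa using hφ0
    have hunit : ∀ y : Submonoid.powers t, IsUnit (φ0 y) := by
      rintro ⟨_, n, rfl⟩
      rw [map_pow, hφ0t]
      exact (isUnit_iff_ne_zero.mpr hc0).pow n
    let φ : A01 →ₐ[k] k := IsLocalization.liftAlgHom hunit
    have hφ : φ.comp (IsScalarTower.toAlgHom k A0 A01) = φ0 := by
      ext a
      exact IsLocalization.lift_eq _ a
    have hφt : φ (algebraMap A0 A01 t) = c0 := by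
      have := congrArg (fun ψ : A0 →ₐ[k] k => ψ t) hφ
      simpa [hφ0t] using this
    refine ⟨⟨v, ?_⟩, ⟨φ, ?_, ?_⟩, rfl⟩
    · rw [hvφ0]
      exact deg_ratPlace hB0 φ0
    · change v = ratPlace F hB01 φ
      rw [ratPlace_comp hB0 hB01 φ, hφ]
      exact hvφ0
    · rw [hφt]
      exact hc0C
  obtain ⟨l, hnd, hl, hlen, hgood⟩ := exists_simul_translate H hp hdeg hS hInf
    (Set.finite_empty (α := Pt)) D0 hD0 n hn
  -- replace the list of places by a list of `k`-points
  obtain ⟨P₀, φ₀, -, -⟩ := hS.nonempty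
  let f : Pt → (A01 →ₐ[k] k) := fun P =>
    if h : ∃ φ : A01 →ₐ[k] k, P.1 = ratPlace F hB01 φ ∧ φ (algebraMap A0 A01 t) ∉ C then
      Classical.choose h else φ₀
  have hf : ∀ P ∈ S, P.1 = ratPlace F hB01 (f P) ∧ (f P) (algebraMap A0 A01 t) ∉ C := by
    intro P hP
    have hP' : ∃ φ : A01 →ₐ[k] k, P.1 = ratPlace F hB01 φ ∧ φ (algebraMap A0 A01 t) ∉ C := hP
    simp only [f, dif_pos hP']
    exact Classical.choose_spec hP'
  have hconv : ∀ m : List Pt, (∀ x ∈ m, x ∈ S) →
      divOfPoints (F := F) hB01 (m.map f) = pushDiv p (dv m) := by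
    intro m
    induction m with
    | nil => intro _; simp [divOfPoints]
    | cons P m ih =>
      intro hm
      have ih' := ih (fun x hx => hm x (List.mem_cons_of_mem _ hx))
      have hP := (hf P (hm P List.mem_cons_self)).1
      rw [dv_cons, map_add, pushDiv_single, ← ih']
      change _ = Finsupp.single P.1 1 + _
      rw [hP]
      simp [divOfPoints]
  have hlS : ∀ x ∈ l, x ∈ S := fun x hx => (hl x hx).1
  have hdiv := hconv l hlS
  refine ⟨l.map f, ?_, by simp [hlen], ?_, fun i => ?_⟩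
  · refine List.Nodup.map_on ?_ hnd
    intro x hx y hy hxy
    apply Subtype.ext
    rw [(hf x (hlS x hx)).1, (hf y (hlS y hy)).1, hxy]
  · intro φ hφ
    obtain ⟨P, hP, rfl⟩ := List.mem_map.mp hφ
    exact (hf P (hlS P hP)).2
  · obtain ⟨g1, g0, gI⟩ := hgood i
    rw [hdiv]
    refine ⟨g1, g0, fun v hv => ?_, fun z hz => ?_⟩
    · obtain ⟨φ, -, hvφ⟩ := hInfRat v hv
      have hvdeg : v.deg = 1 := by rw [hvφ]; exact deg_ratPlace hB1 φ
      exact gI ⟨v, hvdeg⟩ (Or.inl hv)
    · exact gI ⟨ratPlace F hB0 z, deg_ratPlace hB0 z⟩ (Or.inr ⟨z, hz, rfl⟩)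

/-- **Simultaneous covering theorem with rational twisting points**, for helper38's interface
`Core38.TwoChart` (plus one divisor with vanishing `H¹`). -/
theorem exists_simul_translate_ratPlaces_core [IsAlgClosed k]
    (hB0 : ¬ IsField (K ⊗[k] A0)) (hB1 : ¬ IsField (K ⊗[k] A1)) (hB01 : ¬ IsField (K ⊗[k] A01))
    (t : A0) (s : A1) [IsLocalization.Away t A01]
    (hts : algebraMap (K ⊗[k] A0) F ((1 : K) ⊗ₜ[k] t) *
      algebraMap (K ⊗[k] A1) F ((1 : K) ⊗ₜ[k] s) = 1)
    (hint₀ : (aeval ((1 : K) ⊗ₜ[k] t) : K[X] →ₐ[K] K ⊗[k] A0).toRingHom.IsIntegral)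
    (htr : Transcendental K (algebraMap (K ⊗[k] A0) F ((1 : K) ⊗ₜ[k] t)))
    (hfin0 : ∀ c : k, Module.Finite k (A0 ⧸ Ideal.span {t - algebraMap k A0 c}))
    (hfin1 : Module.Finite k (A1 ⧸ Ideal.span {s}))
    (T : Fermat.Agent.JAC.Fibre.Core38.TwoChart (chartSet (K := K) (F := F) (K ⊗[k] A0))
      (chartSet (K := K) (F := F) (K ⊗[k] A1)))
    (hvan : ∃ E : Divisor K F, Fermat.Agent.JAC.Fibre.Core38.h1n
      (chartSet (K := K) (F := F) (K ⊗[k] A0)) (chartSet (K := K) (F := F) (K ⊗[k] A1)) E = 0)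
    {ι : Type*} [Finite ι] (D0 : ι → Divisor K F) (hD0 : ∀ i, Divisor.degree (D0 i) = 0)
    (n : ℕ) (hn : Fermat.Agent.JAC.Fibre.Core38.chi (chartSet (K := K) (F := F) (K ⊗[k] A0))
      (chartSet (K := K) (F := F) (K ⊗[k] A1)) 0 = 1 - n)
    (C : Set k) (hC : C.Finite) (Z : Set (A0 →ₐ[k] k)) (hZ : Z.Finite) :
    ∃ l : List (A01 →ₐ[k] k), l.Nodup ∧ l.length = n ∧
      (∀ φ ∈ l, φ (algebraMap A0 A01 t) ∉ C) ∧
      ∀ i,
        Fermat.Agent.JAC.Fibre.Core38.h1n (chartSet (K := K) (F := F) (K ⊗[k] A0))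
          (chartSet (K := K) (F := F) (K ⊗[k] A1)) (D0 i + divOfPoints hB01 l) = 0 ∧
        Fermat.Agent.JAC.Fibre.Core38.h0n (chartSet (K := K) (F := F) (K ⊗[k] A0))
          (chartSet (K := K) (F := F) (K ⊗[k] A1)) (D0 i + divOfPoints hB01 l) = 1 ∧
        (∀ v : Place K F, v ∉ chartSet (K := K) (F := F) (K ⊗[k] A0) →
          Fermat.Agent.JAC.Fibre.Core38.h0n (chartSet (K := K) (F := F) (K ⊗[k] A0))
            (chartSet (K := K) (F := F) (K ⊗[k] A1))
            (D0 i + divOfPoints hB01 l - Finsupp.single v 1) = 0) ∧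
        ∀ z ∈ Z,
          Fermat.Agent.JAC.Fibre.Core38.h0n (chartSet (K := K) (F := F) (K ⊗[k] A0))
            (chartSet (K := K) (F := F) (K ⊗[k] A1))
            (D0 i + divOfPoints hB01 l - Finsupp.single (ratPlace F hB0 z) 1) = 0 := by
  have H := Fermat.Agent.JAC.Fibre.Bridge67.twoChartHyp T hvan
  have hn' := hn
  rw [← Fermat.Agent.JAC.Fibre.Bridge67.chi_eq] at hn'
  obtain ⟨l, hnd, hlen, hlC, hgood⟩ := exists_simul_translate_ratPlaces hB0 hB1 hB01 t s hts hint₀
    htr hfin0 hfin1 H T.finite_residue D0 hD0 n hn' C hC Z hZ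
  refine ⟨l, hnd, hlen, hlC, fun i => ?_⟩
  obtain ⟨g1, g0, gI, gZ⟩ := hgood i
  refine ⟨?_, ?_, fun v hv => ?_, fun z hz => ?_⟩
  · rw [← Fermat.Agent.JAC.Fibre.Bridge67.h1_eq]; exact g1
  · rw [← Fermat.Agent.JAC.Fibre.Bridge67.h0_eq]; exact g0
  · rw [← Fermat.Agent.JAC.Fibre.Bridge67.h0_eq]; exact gI v hv
  · rw [← Fermat.Agent.JAC.Fibre.Bridge67.h0_eq]; exact gZ z hz

end Fermat.Agent.FFJ.Fib.SimulRat6
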