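/-
Programme FFJ (S19), brick FIB (helper6), part (F3c): THE SIMULTANEOUS GOOD TWIST.

CURVE data `(A0 → A01 ← A1; t, s)` over an algebraically closed field `k`, `K` any field over `k`
(`K = k` in the application to the geometric fibres of the model of `X₀(M)`).  For FINITELY MANY
classes `ξ i : Cl k A0 A1 A01 t s K` of degree `0`, a finite set `C ⊆ k` of forbidden
`t`-coordinates and a finite set `Z` of `k`-points of the chart `A0`, there is ONE list `l` of
`g` DISTINCT `k`-points of the overlap `A01` (`g` the genus), with `t`-coordinates outside `C`,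
such that for ALL `i` the class `ξ i * [O(Σ_{q ∈ l} q)]` is good (`H¹ = 0`, `H⁰` free of rank one on
a section without zero at infinity) and the divisor of the section misses all points of `Z`.

* `exists_simul_good_translate` : divisor form.

(Field-base version, kept for reference.  The base-RING version consumed by Programme FFJ is
`FFJ/Fib/FibR6.fibR : SpecD35.FibStatement`, built on `AbsFib6`, `RankZero6`, `GoodRank6`.)
-/
import Mathlib
import Fermat.Agent.JAC.Fibre.CovWire67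
import Fermat.Agent.JAC.Fibre.DiagPrin38
import Fermat.Agent.JAC.Hilb.Cov67
import Fermat.Agent.FFJ.Fib.SimulRat6
import Fermat.Agent.FFJ.Fib.GoodAvoid6

set_option autoImplicit false
set_option linter.unusedSectionVars false
set_option maxHeartbeats 400000

open AlgebraicCurve IsDedekindDomain Polynomial

namespace Fermat.Agent.FFJ.Fib.SimulTwist6

open scoped TensorProduct
open scoped Fermat.Agent.JAC.Core.ConstFamily36
open Fermat.Agent.JAC.Core.ConstFamily36 Fermat.Agent.JAC.Core.Defs36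
  Fermat.Agent.JAC.Core.AlgAtlas36 Fermat.Agent.JAC.Fibre.ConstExt37
  Fermat.Agent.JAC.Fibre.Chart38 Fermat.Agent.JAC.Fibre.Core38
  Fermat.Agent.JAC.Fibre.DiagOfDiv38 Fermat.Agent.JAC.Fibre.RatPlaces67
  Fermat.Agent.JAC.Fibre.PointDiag67 Fermat.Agent.JAC.Fibre.CovWire67
  Fermat.Agent.FFJ.Fib.SimulRat6 Fermat.Agent.FFJ.Fib.GoodAvoid6

universe u

variable {k : Type u} [Field k] {A0 A1 A01 : Type u} [CommRing A0] [CommRing A1] [CommRing A01]
  [Algebra k A0] [Algebra k A1] [Algebra k A01] [Algebra A0 A01] [Algebra A1 A01]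
  [IsScalarTower k A0 A01] [IsScalarTower k A1 A01] (t : A0) (s : A1)
  [IsLocalization.Away t A01] [IsLocalization.Away s A01]

/-! ### `h⁰(O) = 1` -/

section HZero

variable {K F : Type*} [Field K] [Field F] [Algebra K F]

/-- `h⁰(O) = 1` on a two-chart curve with a place of degree one. -/
theorem h0_zero_eq_one {U0 U1 : Set (Place K F)}
    (H : Fermat.Agent.JAC.Fibre.Vanish67.TwoChartHyp U0 U1) {v : Place K F} (hv : v.deg = 1) :
    Fermat.Agent.JAC.Fibre.Vanish67.h0 U0 U1 0 = 1 := by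
  have hle := Fermat.Agent.FFJ.Fib.SimulPlaces6.h0_le_one_of_degree_eq_zero H
    (D := 0) (map_zero _) hv
  have hone : (1 : F) ∈ Fermat.Agent.JAC.Fibre.Vanish67.H0 U0 U1 0 := by
    constructor <;>
    · intro w _
      simp
  have := H.fin0 0
  have hpos : 0 < Module.finrank K (Fermat.Agent.JAC.Fibre.Vanish67.H0 U0 U1 0) :=
    Module.finrank_pos_iff_exists_ne_zero.mpr
      ⟨⟨1, hone⟩, fun h0 => one_ne_zero (congrArg Subtype.val h0)⟩
  unfold Fermat.Agent.JAC.Fibre.Vanish67.h0 at hle ⊢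
  omega

end HZero

/-! ### The product of point classes -/

section Prod

variable (K : Type u) [Field K] [Algebra k K]
  [IsDedekindDomain (K ⊗[k] A0)] [IsDedekindDomain (K ⊗[k] A1)] [IsDedekindDomain (K ⊗[k] A01)]
  [IsFractionRing (K ⊗[k] A0) (FF k A01 K)] [IsFractionRing (K ⊗[k] A1) (FF k A01 K)]
  [IsDedekindDomain (k ⊗[k] A0)] [IsDedekindDomain (k ⊗[k] A1)] [IsDedekindDomain (k ⊗[k] A01)]
  [IsFractionRing (k ⊗[k] A0) (FF k A01 k)] [IsFractionRing (k ⊗[k] A1) (FF k A01 k)]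

/-- Base change of a product of point classes. -/
theorem bc_prod_ptClass (hb0 : ¬ IsField (k ⊗[k] A0)) (hb1 : ¬ IsField (k ⊗[k] A1))
    (hB0 : ¬ IsField (K ⊗[k] A0)) (hB1 : ¬ IsField (K ⊗[k] A1)) (l : List (A01 →ₐ[k] k)) :
    bc (A0 := A0) (A1 := A1) (A01 := A01) (t := t) (s := s) (Algebra.ofId k K)
      ((l.map (ptClass t s k hb0 hb1)).prod) = (l.map (ptClass t s K hB0 hB1)).prod := by
  induction l with
  | nil => simp
  | cons q l ih =>
    rw [List.map_cons, List.prod_cons, map_mul, ih, bc_ptClass t s K hb0 hb1 hB0 hB1 q,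
      List.map_cons, List.prod_cons]

end Prod

/-! ### The simultaneous good twist -/

section Simul

variable (K : Type u) [Field K] [Algebra k K]
  [IsDedekindDomain (K ⊗[k] A0)] [IsDedekindDomain (K ⊗[k] A1)] [IsDedekindDomain (K ⊗[k] A01)]
  [IsFractionRing (K ⊗[k] A0) (FF k A01 K)] [IsFractionRing (K ⊗[k] A1) (FF k A01 K)]
  (hts : algebraMap A0 A01 t * algebraMap A1 A01 s = 1)
  {n0 n1 : ℕ} {a0 : Fin n0 → A0} {a1 : Fin n1 → A1}
  (ha0 : Function.Bijective (fun p : Fin n0 → k[X] => ∑ j, aeval t (p j) * a0 j))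
  (ha1 : Function.Bijective (fun p : Fin n1 → k[X] => ∑ j, aeval s (p j) * a1 j))
  [IsAlgClosed k]
  [IsDedekindDomain (k ⊗[k] A0)] [IsDedekindDomain (k ⊗[k] A1)] [IsDedekindDomain (k ⊗[k] A01)]
  [IsFractionRing (k ⊗[k] A0) (FF k A01 k)] [IsFractionRing (k ⊗[k] A1) (FF k A01 k)]

/-- The genus of the fibre over `K`: `h¹(O)`. -/
noncomputable def genus : ℕ :=
  h1n (chartSet (K := K) (F := FF k A01 K) (K ⊗[k] A0))
    (chartSet (K := K) (F := FF k A01 K) (K ⊗[k] A1)) 0

include hts ha0 ha1 in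
/-- **Simultaneous good twist, divisor form.** -/
theorem exists_simul_good_translate (e : A01 →ₐ[k] k) {ι : Type*} [Finite ι]
    (ξ : ι → Cl k A0 A1 A01 t s K)
    (hξ : ∀ i, Fermat.Agent.JAC.Core.Degree36.degClass K (ξ i) = 0)
    (C : Set k) (hC : C.Finite) (Z : Set (A0 →ₐ[k] k)) (hZ : Z.Finite) :
    ∃ (l : List (A01 →ₐ[k] k))
      (S : IsSetting K (FF k A01 K) ((1 : K) ⊗ₜ[k] t) ((1 : K) ⊗ₜ[k] s) (K ⊗[k] A01))
      (T : TwoChart (chartSet (K := K) (F := FF k A01 K) (K ⊗[k] A0))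
        (chartSet (K := K) (F := FF k A01 K) (K ⊗[k] A1)))
      (_ : ∃ E : Divisor K (FF k A01 K), h1n (chartSet (K := K) (F := FF k A01 K) (K ⊗[k] A0))
        (chartSet (K := K) (F := FF k A01 K) (K ⊗[k] A1)) E = 0),
      l.Nodup ∧ l.length = genus (k := k) (A0 := A0) (A1 := A1) (A01 := A01) K ∧
      (∀ φ ∈ l, φ (algebraMap A0 A01 t) ∉ C) ∧
      ∀ i, ∃ D' : Divisor K (FF k A01 K),
        ξ i * bc (Algebra.ofId k K) ((l.map (ptClass t s k (not_isField_tensor k ha0)
          (not_isField_tensor k ha1))).prod) =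
          Fermat.Agent.JAC.Grp.Diag33.cls (lineDiagOfDiv S D') ∧
        h1n (chartSet (K := K) (F := FF k A01 K) (K ⊗[k] A0))
          (chartSet (K := K) (F := FF k A01 K) (K ⊗[k] A1)) D' = 0 ∧
        h0n (chartSet (K := K) (F := FF k A01 K) (K ⊗[k] A0))
          (chartSet (K := K) (F := FF k A01 K) (K ⊗[k] A1)) D' = 1 ∧
        (∀ v : Place K (FF k A01 K), v ∉ chartSet (K := K) (F := FF k A01 K) (K ⊗[k] A0) →
          h0n (chartSet (K := K) (F := FF k A01 K) (K ⊗[k] A0))
            (chartSet (K := K) (F := FF k A01 K) (K ⊗[k] A1)) (D' - Finsupp.single v 1) = 0) ∧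
        ∀ z ∈ Z,
          h0n (chartSet (K := K) (F := FF k A01 K) (K ⊗[k] A0))
            (chartSet (K := K) (F := FF k A01 K) (K ⊗[k] A1))
            (D' - Finsupp.single (ratPlace (FF k A01 K) (not_isField_tensor K ha0) z) 1) = 0 := by
  classical
  have S := isSetting t s K hts ha0 ha1
  have hB0 := not_isField_tensor K ha0
  have hB1 := not_isField_tensor K ha1
  have hB01 := not_isField_tensor₀₁ t K ha0 e
  obtain ⟨T, m₀, hm₀⟩ := exists_twoChart t s K hts ha0 ha1
  have hvan : ∃ E : Divisor K (FF k A01 K),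
      h1n (chartSet (K := K) (F := FF k A01 K) (K ⊗[k] A0))
        (chartSet (K := K) (F := FF k A01 K) (K ⊗[k] A1)) E = 0 := ⟨_, hm₀ m₀ le_rfl⟩
  -- divisors representing the classes
  have hsurj := Fermat.Agent.JAC.Fibre.DiagOps38.clsOfDiv_surjective S
  let D0 : ι → Divisor K (FF k A01 K) := fun i =>
    Multiplicative.toAdd (Classical.choose (hsurj (ξ i)))
  have hD0cls : ∀ i, Fermat.Agent.JAC.Grp.Diag33.cls (lineDiagOfDiv S (D0 i)) = ξ i := fun i =>
    Classical.choose_spec (hsurj (ξ i))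
  have hD0 : ∀ i, Divisor.degree (D0 i) = 0 := by
    intro i
    rw [← Fermat.Agent.JAC.Fibre.DiagPrin38.degClass_cls_lineDiagOfDiv S T (D0 i), hD0cls i]
    exact hξ i
  -- the genus
  have H := Fermat.Agent.JAC.Fibre.Bridge67.twoChartHyp T hvan
  have hh0 : h0n (chartSet (K := K) (F := FF k A01 K) (K ⊗[k] A0))
      (chartSet (K := K) (F := FF k A01 K) (K ⊗[k] A1)) 0 = 1 := by
    rw [← Fermat.Agent.JAC.Fibre.Bridge67.h0_eq]
    exact h0_zero_eq_one H (deg_ratPlace hB01 e)
  have hn : chi (chartSet (K := K) (F := FF k A01 K) (K ⊗[k] A0))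
      (chartSet (K := K) (F := FF k A01 K) (K ⊗[k] A1)) 0 =
      1 - (genus (k := k) (A0 := A0) (A1 := A1) (A01 := A01) K : ℤ) := by
    unfold chi genus
    rw [hh0]
    simp
  have hfin0 : ∀ c : k, Module.Finite k (A0 ⧸ Ideal.span {t - algebraMap k A0 c}) :=
    fun c => finite_quotient_of_coords ha0.2 c
  have hfin1 : Module.Finite k (A1 ⧸ Ideal.span {s}) := by
    have := finite_quotient_of_coords ha1.2 (0 : k)
    rwa [map_zero, sub_zero] at this
  have key := exists_simul_translate_ratPlaces_core (K := K) (F := FF k A01 K) hB0 hB1 hB01 t s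
    (hts_FF t s K hts) (isIntegral_aeval K ha0) (transcendental_tau (A01 := A01) t K ha0)
    hfin0 hfin1 T hvan (ι := ι) D0
  have key2 := key hD0 (genus (k := k) (A0 := A0) (A1 := A1) (A01 := A01) K)
  obtain ⟨l, hnd, hlen, hlC, hgood⟩ := key2 hn C hC Z hZ
  refine ⟨l, S, T, hvan, hnd, hlen, hlC, fun i => ?_⟩
  obtain ⟨g1, g0, gI, gZ⟩ := hgood i
  refine ⟨D0 i + divOfPoints hB01 l, ?_, g1, g0, gI, gZ⟩
  rw [bc_prod_ptClass t s K (not_isField_tensor k ha0) (not_isField_tensor k ha1) hB0 hB1,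
    prod_ptClass_eq t s K S hB0 hB1 hB01, ← hD0cls i,
    ← Fermat.Agent.JAC.Fibre.DiagOps38.clsOfDiv_apply, ← map_mul,
    ← Fermat.Agent.JAC.Fibre.DiagOps38.clsOfDiv_apply, ← ofAdd_add]

end Simul

end Fermat.Agent.FFJ.Fib.SimulTwist6
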